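/-
GATE-J / J3-KUM (helper44): the norm `N_ℓ` from `R((t))` down to `R((t^ℓ))` on Laurent series,
defined WITHOUT roots of unity as the determinant of a twisted circulant of `ℓ`-sections.

namespace Fermat.Agent.GJ.Kum.  Imports: Mathlib + prelude (`coeffMap`, `qExpand`) + helper20's
Mathlib-only `S16/Conj/QCirc.lean`.

Exports (R a commutative ring, `ℓ` with `[NeZero ℓ]`):
* `sect ℓ r u` : the `r`-th `ℓ`-section, `(sect ℓ r u).coeff m = u.coeff (ℓ*m + r)`
* `decomp` : `u = ∑_{a<ℓ} t^a * qExpand ℓ (sect ℓ a u)`, `sect_sum` (coordinates are unique)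
* `mulMat ℓ u` : matrix of multiplication by `u` in the basis `1, t, …, t^(ℓ-1)` (entries in
  `R((q))`, `q = t^ℓ`), `mulMat_mul`, `mulMat_one`, `mulMat_qExpand`
* `normL ℓ u := (mulMat ℓ u).det`, `normL_mul`, `normL_one`, `normL_qExpand : normL ℓ (qExpand ℓ a)
  = a ^ ℓ`, `coeffMap_normL`
-/
import Mathlib
import Fermat.Prelude.Def_ModularCurve_X0
import Fermat.Prelude.Def_ModularCurve_LaurentCoeff
import Fermat.Agent.S16.Conj.QCirc

set_option autoImplicit false

namespace Fermat.Agent.GJ.Kum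

open HahnSeries ModularCurve Finset
open Fermat.Agent.S16.Conj (qcirc qcirc_apply qcirc_map qcirc_eq_scalar)

variable {R : Type*} [CommRing R]

/-- the monomial `t^k` -/
noncomputable abbrev tpow (R : Type*) [CommRing R] (k : ℤ) : LaurentSeries R :=
  HahnSeries.single k (1 : R)

theorem coeff_tpow_mul (k j : ℤ) (x : LaurentSeries R) :
    (tpow R k * x).coeff j = x.coeff (j - k) := by
  rw [HahnSeries.coeff_single_mul, one_mul]

theorem coeff_mul_tpow (k j : ℤ) (x : LaurentSeries R) :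
    (x * tpow R k).coeff j = x.coeff (j - k) := by
  rw [HahnSeries.coeff_mul_single, mul_one]

section Sect

variable (ℓ : ℕ) [NeZero ℓ]

theorem qExpand_coeff (x : LaurentSeries R) (j : ℤ) :
    (qExpand R ℓ x).coeff j = if (ℓ : ℤ) ∣ j then x.coeff (j / ℓ) else 0 := by
  split_ifs with h
  · obtain ⟨m, rfl⟩ := h
    rw [qExpand_coeff_mul, Int.mul_ediv_cancel_left _ (by exact_mod_cast NeZero.ne ℓ)]
  · exact qExpand_coeff_of_not_dvd ℓ x h

/-- the `r`-th `ℓ`-section of a Laurent series -/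
noncomputable def sect (r : ℕ) (u : LaurentSeries R) : LaurentSeries R :=
  HahnSeries.ofSuppBddBelow (fun m : ℤ => u.coeff ((ℓ : ℤ) * m + r))
    (⟨min (u.order - r) 0, fun m hm0 => by
      by_contra hm'
      have hm : m < min (u.order - r) 0 := not_le.mp hm'
      apply hm0
      show u.coeff ((ℓ : ℤ) * m + r) = 0
      apply HahnSeries.coeff_eq_zero_of_lt_order
      have h1 : m < u.order - r := lt_of_lt_of_le hm (min_le_left _ _)
      have h2 : m < 0 := lt_of_lt_of_le hm (min_le_right _ _)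
      have h3 : (1 : ℤ) ≤ ℓ := by exact_mod_cast Nat.one_le_iff_ne_zero.mpr (NeZero.ne ℓ)
      nlinarith⟩)

@[simp]
theorem coeff_sect (r : ℕ) (u : LaurentSeries R) (m : ℤ) :
    (sect ℓ r u).coeff m = u.coeff ((ℓ : ℤ) * m + r) := rfl

theorem sect_add (r : ℕ) (u v : LaurentSeries R) : sect ℓ r (u + v) = sect ℓ r u + sect ℓ r v := by
  ext m; simp

theorem coeffMap_sect {S : Type*} [CommRing S] (f : R →+* S) (r : ℕ) (u : LaurentSeries R) :
    coeffMap f (sect ℓ r u) = sect ℓ r (coeffMap f u) := by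
  ext m; simp

/-- coefficient of a combination `∑_{a<ℓ} t^a * c_a(t^ℓ)` -/
theorem coeff_sum_tpow_qExpand (c : ℕ → LaurentSeries R) (k : ℤ) :
    (∑ a ∈ range ℓ, tpow R a * qExpand R ℓ (c a)).coeff k =
      (c (k % ℓ).toNat).coeff (k / ℓ) := by
  have hℓ : (0 : ℤ) < ℓ := by exact_mod_cast Nat.pos_of_ne_zero (NeZero.ne ℓ)
  have hr0 : 0 ≤ k % ℓ := Int.emod_nonneg _ hℓ.ne'
  have hrl : k % ℓ < ℓ := Int.emod_lt_of_pos _ hℓ
  have hmem : (k % ℓ).toNat ∈ range ℓ := by
    rw [mem_range]; omega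
  rw [HahnSeries.coeff_sum, Finset.sum_eq_single_of_mem _ hmem]
  · rw [coeff_tpow_mul, qExpand_coeff, if_pos]
    · congr 1
      have : ((k % ℓ).toNat : ℤ) = k % ℓ := Int.toNat_of_nonneg hr0
      rw [this]
      have h := Int.emod_add_mul_ediv k ℓ
      have h2 : k - k % ℓ = ℓ * (k / ℓ) := by linarith
      rw [h2, Int.mul_ediv_cancel_left _ hℓ.ne']
    · have : ((k % ℓ).toNat : ℤ) = k % ℓ := Int.toNat_of_nonneg hr0
      rw [this]
      exact Int.dvd_self_sub_emod
  · intro a ha hne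
    rw [mem_range] at ha
    rw [coeff_tpow_mul, qExpand_coeff, if_neg]
    intro hdvd
    apply hne
    have h1 : (k - a) % ℓ = 0 := Int.emod_eq_zero_of_dvd hdvd
    have h2 : k % ℓ = (a : ℤ) % ℓ := by
      have := Int.emod_emod_of_dvd k (dvd_refl (ℓ : ℤ))
      exact (Int.emod_eq_emod_iff_emod_sub_eq_zero).mpr h1
    have h3 : (a : ℤ) % ℓ = a := Int.emod_eq_of_lt (by positivity) (by exact_mod_cast ha)
    rw [h2, h3]
    simp

/-- coordinates in the basis `1, t, …, t^(ℓ-1)` are the sections -/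
theorem sect_sum (c : ℕ → LaurentSeries R) {r : ℕ} (hr : r < ℓ) :
    sect ℓ r (∑ a ∈ range ℓ, tpow R a * qExpand R ℓ (c a)) = c r := by
  ext m
  rw [coeff_sect, coeff_sum_tpow_qExpand]
  have hℓ : (0 : ℤ) < ℓ := by exact_mod_cast Nat.pos_of_ne_zero (NeZero.ne ℓ)
  have h1 : ((ℓ : ℤ) * m + r) % ℓ = r := by
    rw [Int.mul_add_emod_self_left]
    exact Int.emod_eq_of_lt (by positivity) (by exact_mod_cast hr)
  have h2 : ((ℓ : ℤ) * m + r) / ℓ = m := by
    rw [Int.add_comm, Int.add_mul_ediv_left _ _ hℓ.ne']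
    rw [Int.ediv_eq_zero_of_lt (by positivity) (by exact_mod_cast hr), zero_add]
  rw [h1, h2]
  simp

/-- every Laurent series is `∑_{a<ℓ} t^a * u_a(t^ℓ)` with `u_a` its sections -/
theorem decomp (u : LaurentSeries R) :
    u = ∑ a ∈ range ℓ, tpow R a * qExpand R ℓ (sect ℓ a u) := by
  ext k
  rw [coeff_sum_tpow_qExpand, coeff_sect]
  have hℓ : (0 : ℤ) < ℓ := by exact_mod_cast Nat.pos_of_ne_zero (NeZero.ne ℓ)
  have hr0 : 0 ≤ k % ℓ := Int.emod_nonneg _ hℓ.ne'
  rw [Int.toNat_of_nonneg hr0, Int.mul_ediv_add_emod]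

end Sect

section MulMat

variable (ℓ : ℕ) [NeZero ℓ]

/-- the parameter `q = t^ℓ`, as an element of `R((q))` -/
noncomputable abbrev qq (R : Type*) [CommRing R] : LaurentSeries R := HahnSeries.single (1 : ℤ) (1 : R)

/-- matrix of multiplication by `u` on `R((t))` over `R((t^ℓ))` in the basis `1, …, t^(ℓ-1)` -/
noncomputable def mulMat (u : LaurentSeries R) : Matrix (Fin ℓ) (Fin ℓ) (LaurentSeries R) :=
  qcirc ℓ (fun r => sect ℓ r u) (qq R)

theorem sect_mul_tpow (u : LaurentSeries R) {a b : ℕ} (hb : b < ℓ) :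
    sect ℓ a (u * tpow R b) =
      if b ≤ a then sect ℓ (a - b) u else qq R * sect ℓ (ℓ + a - b) u := by
  ext m
  rw [coeff_sect, coeff_mul_tpow]
  split_ifs with h
  · rw [coeff_sect, Nat.cast_sub h]
    congr 1; ring
  · rw [coeff_tpow_mul, coeff_sect]
    have h' : b ≤ ℓ + a := by omega
    rw [Nat.cast_sub h', Nat.cast_add]
    congr 1; ring

theorem mulMat_apply (u : LaurentSeries R) (a b : Fin ℓ) :
    mulMat ℓ u a b = sect ℓ a (u * tpow R (b : ℕ)) := by
  rw [sect_mul_tpow ℓ u b.2, mulMat, qcirc_apply]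

theorem mul_eq_sum (u X : LaurentSeries R) :
    u * X = ∑ c ∈ range ℓ, (u * tpow R c) * qExpand R ℓ (sect ℓ c X) := by
  conv_lhs => rw [decomp ℓ X]
  rw [mul_sum]
  exact sum_congr rfl fun c _ => by ring

theorem sect_mul (u X : LaurentSeries R) {a : ℕ} (ha : a < ℓ) :
    sect ℓ a (u * X) = ∑ c ∈ range ℓ, sect ℓ a (u * tpow R c) * sect ℓ c X := by
  have key : u * X = ∑ d ∈ range ℓ, tpow R d *
      qExpand R ℓ (∑ c ∈ range ℓ, sect ℓ d (u * tpow R c) * sect ℓ c X) := by
    rw [mul_eq_sum ℓ u X]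
    calc ∑ c ∈ range ℓ, (u * tpow R c) * qExpand R ℓ (sect ℓ c X)
        = ∑ c ∈ range ℓ, ∑ d ∈ range ℓ,
            tpow R d * qExpand R ℓ (sect ℓ d (u * tpow R c) * sect ℓ c X) := by
          refine sum_congr rfl fun c _ => ?_
          conv_lhs => rw [decomp ℓ (u * tpow R c)]
          rw [sum_mul]
          refine sum_congr rfl fun d _ => ?_
          rw [map_mul]; ring
      _ = ∑ d ∈ range ℓ, ∑ c ∈ range ℓ,
            tpow R d * qExpand R ℓ (sect ℓ d (u * tpow R c) * sect ℓ c X) := sum_comm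
      _ = _ := by
          refine sum_congr rfl fun d _ => ?_
          rw [map_sum, mul_sum]
  rw [key, sect_sum ℓ _ ha]

theorem mulMat_mul (u v : LaurentSeries R) : mulMat ℓ (u * v) = mulMat ℓ u * mulMat ℓ v := by
  refine Matrix.ext fun a b => ?_
  rw [Matrix.mul_apply, mulMat_apply, mul_assoc, sect_mul ℓ u _ a.2,
    ← Fin.sum_univ_eq_sum_range (fun c => sect ℓ a (u * tpow R c) * sect ℓ c (v * tpow R b)) ℓ]
  exact Fintype.sum_congr _ _ fun c => by rw [mulMat_apply, mulMat_apply]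

theorem sect_qExpand_zero (x : LaurentSeries R) : sect ℓ 0 (qExpand R ℓ x) = x := by
  ext m
  rw [coeff_sect, Nat.cast_zero, add_zero, qExpand_coeff_mul]

theorem sect_qExpand_of_pos (x : LaurentSeries R) {r : ℕ} (h0 : 0 < r) (hr : r < ℓ) :
    sect ℓ r (qExpand R ℓ x) = 0 := by
  ext m
  rw [coeff_sect, HahnSeries.coeff_zero]
  apply qExpand_coeff_of_not_dvd
  intro hd
  have h1 : (ℓ : ℤ) ∣ (r : ℤ) := by
    have := (Int.dvd_add_right (Dvd.intro m rfl)).mp hd
    exact this
  have h2 : (ℓ : ℕ) ∣ r := by exact_mod_cast h1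
  exact absurd (Nat.le_of_dvd h0 h2) (not_le.mpr hr)

theorem mulMat_qExpand (x : LaurentSeries R) :
    mulMat ℓ (qExpand R ℓ x) = Matrix.scalar (Fin ℓ) x := by
  rw [mulMat, qcirc_eq_scalar ℓ _ _ (fun i h0 hi => sect_qExpand_of_pos ℓ x h0 hi)]
  rw [sect_qExpand_zero]

theorem mulMat_one : mulMat ℓ (1 : LaurentSeries R) = 1 := by
  have := mulMat_qExpand ℓ (1 : LaurentSeries R)
  rwa [map_one, map_one] at this

/-- **the norm from `R((t))` to `R((t^ℓ))`**, as a series in `q = t^ℓ` -/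
noncomputable def normL (u : LaurentSeries R) : LaurentSeries R := (mulMat ℓ u).det

theorem normL_mul (u v : LaurentSeries R) : normL ℓ (u * v) = normL ℓ u * normL ℓ v := by
  rw [normL, mulMat_mul, Matrix.det_mul]; rfl

theorem normL_one : normL ℓ (1 : LaurentSeries R) = 1 := by
  rw [normL, mulMat_one, Matrix.det_one]

theorem normL_qExpand (x : LaurentSeries R) : normL ℓ (qExpand R ℓ x) = x ^ ℓ := by
  rw [normL, mulMat_qExpand, Matrix.scalar_apply, Matrix.det_diagonal, Finset.prod_const,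
    Finset.card_univ, Fintype.card_fin]

/-- `normL` as a monoid homomorphism -/
noncomputable def normLHom : LaurentSeries R →* LaurentSeries R where
  toFun := normL ℓ
  map_one' := normL_one ℓ
  map_mul' := normL_mul ℓ

theorem normL_pow (u : LaurentSeries R) (n : ℕ) : normL ℓ (u ^ n) = normL ℓ u ^ n :=
  map_pow (normLHom ℓ) u n

theorem coeffMap_mulMat {S : Type*} [CommRing S] (f : R →+* S) (u : LaurentSeries R) :
    (mulMat ℓ u).map (coeffMap f) = mulMat ℓ (coeffMap f u) := by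
  have h1 : (fun r => coeffMap f (sect ℓ r u)) = fun r => sect ℓ r (coeffMap f u) :=
    funext fun r => coeffMap_sect ℓ f r u
  have h2 : coeffMap f (qq R) = qq S := by rw [coeffMap_single, map_one]
  rw [mulMat, qcirc_map, mulMat, h1, h2]

/-- the norm commutes with coefficientwise ring homomorphisms (Galois action, reduction) -/
theorem coeffMap_normL {S : Type*} [CommRing S] (f : R →+* S) (u : LaurentSeries R) :
    coeffMap f (normL ℓ u) = normL ℓ (coeffMap f u) := by
  rw [normL, RingHom.map_det, RingHom.mapMatrix_apply, coeffMap_mulMat]; rfl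

end MulMat

end Fermat.Agent.GJ.Kum
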