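/-
GATE-J / J4 junction (helper29): the (EIG) → `KumModel.HasEigen` ADAPTER (ruling 1403(3)).

* `tensorZModEquiv` : `k0 ⊗[ℤ] K ≃ₗ[k0] k0 ⊗[ZMod p] K` for a `ZMod p`-module `K` and a
  `ZMod p`-algebra `k0` (the two tensor products coincide);
* `hasEigen_of_rel` : a relational eigenvector in `k0 ⊗[ℤ] K` gives `M.HasEigen k0 a`;
* `hasEigen_of_EIG` : `KumGroup.EIG N p` gives `M.HasEigen k0 (S29Final.aOf θ)` for every Kummer
  model `M` whose underlying group is the shared Kummer group `KumGroup.Kum ℚ̄ F_N p` (through an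
  additive equivalence `e`, e.g. `AddEquiv.refl _`) and whose `T ℓ` is induced by
  `heckeNormSeries ℓ` on representatives.
-/
import Mathlib
import Fermat.Agent.GJ.J4.ESModule
import Fermat.Agent.GJ.J4.S29Final
import Fermat.Agent.GJ.J2.EigIface

set_option autoImplicit false

open TensorProduct

namespace Fermat.Agent.GJ.Kum.EigAdapter

section Tensor

variable (p : ℕ) (k0 K : Type*) [CommRing k0] [Algebra (ZMod p) k0]
  [AddCommGroup K] [Module (ZMod p) K]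

/-- Scalars of `ZMod p` can be moved across a tensor product over `ℤ`. -/
theorem compatibleSMul_int_zmod :
    TensorProduct.CompatibleSMul ℤ (ZMod p) k0 K := by
  refine ⟨fun r m n => ?_⟩
  obtain ⟨z, rfl⟩ := ZMod.intCast_surjective r
  rw [Int.cast_smul_eq_zsmul, Int.cast_smul_eq_zsmul, TensorProduct.smul_tmul]

/-- The comparison isomorphism `k0 ⊗[ℤ] K ≃ k0 ⊗[ZMod p] K`, `k0`-linear. -/
noncomputable def tensorZModEquiv : k0 ⊗[ℤ] K ≃ₗ[k0] k0 ⊗[ZMod p] K :=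
  haveI := compatibleSMul_int_zmod p k0 K
  TensorProduct.equivOfCompatibleSMul (ZMod p) ℤ k0 k0 K

@[simp]
theorem tensorZModEquiv_tmul (c : k0) (x : K) :
    tensorZModEquiv p k0 K (c ⊗ₜ[ℤ] x) = c ⊗ₜ[ZMod p] x := rfl

theorem tensorZModEquiv_sum {n : ℕ} (c : Fin n → k0) (x : Fin n → K) :
    tensorZModEquiv p k0 K (∑ i, c i ⊗ₜ[ℤ] x i) = ∑ i, c i ⊗ₜ[ZMod p] x i := by
  rw [map_sum]
  rfl

/-- Abstract adapter: a relation in `k0 ⊗[ℤ] K` gives an eigenvector of the base change to `k0`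
over `ZMod p`. -/
theorem baseChange_eq_smul_of_rel (T : Module.End (ZMod p) K) (a : k0) {n : ℕ}
    (c : Fin n → k0) (x : Fin n → K)
    (hrel : ∑ i, c i ⊗ₜ[ℤ] T (x i) = a • ∑ i, c i ⊗ₜ[ℤ] x i) :
    T.baseChange k0 (∑ i, c i ⊗ₜ[ZMod p] x i) = a • ∑ i, c i ⊗ₜ[ZMod p] x i := by
  rw [map_sum]
  simp only [LinearMap.baseChange_tmul]
  rw [← tensorZModEquiv_sum p k0 K c (fun i => T (x i)), hrel, map_smul, tensorZModEquiv_sum]

theorem sum_tmul_ne_zero {n : ℕ} (c : Fin n → k0) (x : Fin n → K)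
    (hne : ∑ i, c i ⊗ₜ[ℤ] x i ≠ 0) : ∑ i, c i ⊗ₜ[ZMod p] x i ≠ 0 := by
  rw [← tensorZModEquiv_sum p k0 K c x]
  exact (LinearEquiv.map_ne_zero_iff _).mpr hne

end Tensor

section Transport

variable (k0 : Type*) [CommRing k0] {X Y : Type*} [AddCommGroup X] [AddCommGroup Y]

/-- Transport of `k0 ⊗[ℤ] -` along an additive equivalence, `k0`-linear. -/
noncomputable def tensorCongr (e : X ≃+ Y) : k0 ⊗[ℤ] X ≃ₗ[k0] k0 ⊗[ℤ] Y :=
  LinearEquiv.ofLinearMap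
    ((e.toAddMonoidHom.toIntLinearMap).baseChange k0)
    ((e.symm.toAddMonoidHom.toIntLinearMap).baseChange k0)
    (by
      ext y
      simp)
    (by
      ext x
      simp)

@[simp]
theorem tensorCongr_tmul (e : X ≃+ Y) (c : k0) (x : X) :
    tensorCongr k0 e (c ⊗ₜ[ℤ] x) = c ⊗ₜ[ℤ] e x := by
  simp [tensorCongr]

theorem tensorCongr_sum (e : X ≃+ Y) {n : ℕ} (c : Fin n → k0) (x : Fin n → X) :
    tensorCongr k0 e (∑ i, c i ⊗ₜ[ℤ] x i) = ∑ i, c i ⊗ₜ[ℤ] e (x i) := by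
  rw [map_sum]
  simp

end Transport

section Model

open J4Asm

variable {N p : ℕ} (M : KumModel N p) (k0 : Type) [Field k0] [Algebra (ZMod p) k0]

/-- **Generic adapter**: finitely many classes `x i` with coefficients `c i` such that
`∑ c i ⊗ x i ≠ 0` in `k0 ⊗[ℤ] K` and `∑ c i ⊗ T ℓ (x i) = a ℓ • ∑ c i ⊗ x i` for the good primes,
give `M.HasEigen k0 a`. -/
theorem hasEigen_of_rel (a : ℕ → k0) {n : ℕ} (c : Fin n → k0) (x : Fin n → M.K)
    (hne : ∑ i, c i ⊗ₜ[ℤ] x i ≠ 0)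
    (hrel : ∀ ℓ : ℕ, ℓ.Prime → ¬ ℓ ∣ N * p →
      ∑ i, c i ⊗ₜ[ℤ] M.T ℓ (x i) = a ℓ • ∑ i, c i ⊗ₜ[ℤ] x i) :
    M.HasEigen k0 a :=
  ⟨∑ i, c i ⊗ₜ[ZMod p] x i, sum_tmul_ne_zero p k0 M.K c x hne, fun ℓ hℓ hℓNp =>
    baseChange_eq_smul_of_rel p k0 M.K (M.T ℓ) (a ℓ) c x (hrel ℓ hℓ hℓNp)⟩

end Model

section EIG

open J4Asm KumGroup S29Final CuspForm

variable {N p : ℕ} [NeZero N] [Fact p.Prime] (M : KumModel N p)

/-- **The (EIG) → `HasEigen` adapter, general form**: any excluded set `S` containing the primes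
dividing `N` and no prime `ℓ ∤ N p`, and any eigenvalue function `a` with `a ℓ = θ (T_ℓ)` at the
good primes.  `M` is any Kummer model whose underlying group is (additively equivalent to) the
shared Kummer group `Kum ℚ̄ F_N p` and whose `T ℓ` is induced by `heckeNormSeries ℓ` on
representatives. -/
theorem hasEigen_of_EIG_gen
    (e : Additive (Kum Kb (FK N) p) ≃+ M.K)
    (hT : ∀ (ℓ : ℕ) (hℓ : ℓ.Prime) (_ : ¬ ℓ ∣ N) (u u' : pDivUnits Kb (FK N) p),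
      (((u' : (FK N)ˣ) : FK N) : LaurentSeries Kb) =
          @heckeNormSeries Kb _ ℓ ⟨hℓ.ne_zero⟩ (((u : (FK N)ˣ) : FK N) : LaurentSeries Kb) →
        M.T ℓ (e (Additive.ofMul (Kum.mk u))) = e (Additive.ofMul (Kum.mk u')))
    (hE : EIG N p) (S : Set ℕ) (hS : ∀ ℓ : ℕ, ℓ.Prime → ℓ ∣ N → ℓ ∈ S)
    (hS' : ∀ ℓ : ℕ, ℓ.Prime → ¬ ℓ ∣ N * p → ℓ ∉ S)
    (k0 : Type) [Field k0] [Finite k0] [Algebra (ZMod p) k0]
    (θ : heckeAlgebra N 2 S →+* k0) (a : ℕ → k0)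
    (ha : ∀ (ℓ : ℕ) (hℓ : ℓ.Prime) (hℓN : ¬ ℓ ∣ N) (hℓS : ℓ ∉ S),
      a ℓ = θ (heckeAlgebra.T hℓ hℓN hℓS)) : M.HasEigen k0 a := by
  have : CharP k0 p :=
    charP_of_injective_algebraMap (algebraMap (ZMod p) k0).injective p
  obtain ⟨n, c, u, hne, hrel⟩ := hE S hS k0 θ
  refine hasEigen_of_rel M k0 a c (fun i => e (Additive.ofMul (Kum.mk (u i)))) ?_ ?_
  · rw [← tensorCongr_sum k0 e c (fun i => Additive.ofMul (Kum.mk (u i)))]
    exact (LinearEquiv.map_ne_zero_iff _).mpr hne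
  · intro ℓ hℓ hℓNp
    have hℓN : ¬ ℓ ∣ N := fun h => hℓNp (Dvd.dvd.mul_right h p)
    have hℓS : ℓ ∉ S := hS' ℓ hℓ hℓNp
    obtain ⟨u', hu', hrel'⟩ := hrel ℓ hℓ hℓN hℓS
    have h1 : ∀ i, M.T ℓ (e (Additive.ofMul (Kum.mk (u i)))) = e (Additive.ofMul (Kum.mk (u' i))) :=
      fun i => hT ℓ hℓ hℓN (u i) (u' i) (hu' i)
    simp only [h1]
    rw [← tensorCongr_sum k0 e c (fun i => Additive.ofMul (Kum.mk (u' i))),
      ← tensorCongr_sum k0 e c (fun i => Additive.ofMul (Kum.mk (u i))), ha ℓ hℓ hℓN hℓS,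
      ← map_smul]
    exact congrArg _ hrel'

/-- **The (EIG) → `HasEigen` adapter** in the shape of `S29Final.KUM` (`S = badSet N`,
`a = aOf θ`). -/
theorem hasEigen_of_EIG
    (e : Additive (Kum Kb (FK N) p) ≃+ M.K)
    (hT : ∀ (ℓ : ℕ) (hℓ : ℓ.Prime) (_ : ¬ ℓ ∣ N) (u u' : pDivUnits Kb (FK N) p),
      (((u' : (FK N)ˣ) : FK N) : LaurentSeries Kb) =
          @heckeNormSeries Kb _ ℓ ⟨hℓ.ne_zero⟩ (((u : (FK N)ˣ) : FK N) : LaurentSeries Kb) →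
        M.T ℓ (e (Additive.ofMul (Kum.mk u))) = e (Additive.ofMul (Kum.mk u')))
    (hE : EIG N p) (k0 : Type) [Field k0] [Finite k0] [Algebra (ZMod p) k0]
    (θ : heckeAlgebra N 2 (badSet N) →+* k0) : M.HasEigen k0 (aOf θ) :=
  hasEigen_of_EIG_gen M e hT hE (badSet N) (fun _ _ h => h)
    (fun _ _ hℓNp h => hℓNp (Dvd.dvd.mul_right h p)) k0 θ (aOf θ)
    (fun _ hℓ hℓN _ => aOf_eq θ hℓ hℓN)

end EIG

end Fermat.Agent.GJ.Kum.EigAdapter
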