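/-
GATE-J / J3 GALDIV (helper36): the property "`p` divides the divisor of `u`" is stable under
semilinear automorphisms, in particular under the arithmetic Galois action on
`modularFunctionFieldBar N`.  Stated in unfolded form (no `DivDvd` definition here, so that
this file does not clash with `GJ/Kum/ESKummer.lean`).
-/
import Mathlib
import Fermat.Prelude.Def_ModularCurve_ArithmeticGalois

set_option autoImplicit false

namespace Fermat.Agent.GJ.Kum.GalDiv

open AlgebraicCurve ModularCurve

section Generic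

variable {K F : Type*} [Field K] [Field F] [Algebra K F]

/-- `ord_P (g • f) = ord_{g⁻¹ P} f` -/
theorem ord_smul_eq (g : SemilinearAut K F) (P : Place K F) (f : F) :
    P.ord (g • f) = (g⁻¹ • P).ord f := by
  have h := SemilinearAut.ord_smul g (g⁻¹ • P) f
  rwa [smul_inv_smul] at h

/-- divisibility of all orders is stable under a semilinear automorphism -/
theorem dvd_ord_smul (g : SemilinearAut K F) (n : ℤ) {f : F}
    (h : ∀ P : Place K F, n ∣ P.ord f) : ∀ P : Place K F, n ∣ P.ord (g • f) := by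
  intro P
  rw [ord_smul_eq]
  exact h _

theorem dvd_ord_smul_iff (g : SemilinearAut K F) (n : ℤ) (f : F) :
    (∀ P : Place K F, n ∣ P.ord (g • f)) ↔ ∀ P : Place K F, n ∣ P.ord f := by
  refine ⟨fun h => ?_, dvd_ord_smul g n⟩
  have h' := dvd_ord_smul g⁻¹ n h
  simpa using h'

/-- `m • D = div f` is transported: `m • (g • D) = div (g • f)` pointwise -/
theorem smul_divisor_ord (g : SemilinearAut K F) (m : ℤ) (D : Divisor K F) (f : F)
    (h : ∀ P : Place K F, m * D P = P.ord f) :
    ∀ P : Place K F, m * (g • D) P = P.ord (g • f) := by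
  intro P
  rw [ord_smul_eq, SemilinearAut.divisor_smul_apply]
  exact h _

end Generic

section Modular

variable {L : Type*} [Field L] [Algebra ℚ L]
variable (F₀ : IntermediateField ℚ (LaurentSeries ℚ))

theorem ord_arithmeticRingAut (s : L ≃ₐ[ℚ] L) (P : Place L (laurentBaseChange L F₀))
    (u : laurentBaseChange L F₀) :
    P.ord (arithmeticRingAut F₀ s u) = ((arithmeticGalois F₀ s)⁻¹ • P).ord u :=
  ord_smul_eq (arithmeticGalois F₀ s) P u

/-- **GALDIV**, general base-change form -/
theorem dvd_ord_arithmeticRingAut (s : L ≃ₐ[ℚ] L) (n : ℤ) {u : laurentBaseChange L F₀}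
    (h : ∀ P : Place L (laurentBaseChange L F₀), n ∣ P.ord u) :
    ∀ P : Place L (laurentBaseChange L F₀), n ∣ P.ord (arithmeticRingAut F₀ s u) :=
  dvd_ord_smul (arithmeticGalois F₀ s) n h

theorem dvd_ord_arithmeticRingAut_iff (s : L ≃ₐ[ℚ] L) (n : ℤ) (u : laurentBaseChange L F₀) :
    (∀ P : Place L (laurentBaseChange L F₀), n ∣ P.ord (arithmeticRingAut F₀ s u)) ↔
      ∀ P : Place L (laurentBaseChange L F₀), n ∣ P.ord u :=
  dvd_ord_smul_iff (arithmeticGalois F₀ s) n u

/-- **GALDIV** in the exact shape of `DivDvd N p` of board 1279. -/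
theorem galDiv (N p : ℕ) (s : AlgebraicClosure ℚ ≃ₐ[ℚ] AlgebraicClosure ℚ)
    {u : modularFunctionFieldBar N}
    (h : ∀ P : Place (AlgebraicClosure ℚ) (modularFunctionFieldBar N), (p : ℤ) ∣ P.ord u) :
    ∀ P : Place (AlgebraicClosure ℚ) (modularFunctionFieldBar N),
      (p : ℤ) ∣ P.ord (arithmeticRingAut (modularFunctionFieldFull N) s u) :=
  dvd_ord_arithmeticRingAut (modularFunctionFieldFull N) s (p : ℤ) h

theorem galDiv_iff (N p : ℕ) (s : AlgebraicClosure ℚ ≃ₐ[ℚ] AlgebraicClosure ℚ)
    (u : modularFunctionFieldBar N) :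
    (∀ P : Place (AlgebraicClosure ℚ) (modularFunctionFieldBar N),
      (p : ℤ) ∣ P.ord (arithmeticRingAut (modularFunctionFieldFull N) s u)) ↔
    ∀ P : Place (AlgebraicClosure ℚ) (modularFunctionFieldBar N), (p : ℤ) ∣ P.ord u :=
  dvd_ord_arithmeticRingAut_iff (modularFunctionFieldFull N) s (p : ℤ) u

/-- the Galois action preserves "nonzero" -/
theorem arithmeticRingAut_ne_zero (s : L ≃ₐ[ℚ] L) {u : laurentBaseChange L F₀} (hu : u ≠ 0) :
    arithmeticRingAut F₀ s u ≠ 0 :=
  (map_ne_zero_iff _ (arithmeticRingAut F₀ s).injective).mpr hu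

/-- the Galois action sends `p`-th powers to `p`-th powers -/
theorem arithmeticRingAut_mul_pow (s : L ≃ₐ[ℚ] L) (u v : laurentBaseChange L F₀) (p : ℕ) :
    arithmeticRingAut F₀ s (u * v ^ p) =
      arithmeticRingAut F₀ s u * (arithmeticRingAut F₀ s v) ^ p := by
  rw [map_mul, map_pow]

end Modular

end Fermat.Agent.GJ.Kum.GalDiv
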