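/-
GATE-J / J3-KUM (helper44): the multiplicative Hecke operator ("Hecke norm") on Laurent series,
`heckeNorm ℓ u = u(q^ℓ) · N_ℓ(u)` where `N_ℓ(u)(q) = ∏_{ζ^ℓ=1} u(ζ q^{1/ℓ})` is `normL ℓ u`
of `NormSeries.lean` (defined without roots of unity, over any commutative ring).
-/
import Fermat.Agent.GJ.Kum.NormSeries
import Fermat.Prelude.Thm_ModularCurve_coeffMap_qExpand

set_option autoImplicit false

namespace Fermat.Agent.GJ.Kum

open HahnSeries ModularCurve Finset

variable {R : Type*} [CommRing R]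

section HeckeNorm

variable (ℓ : ℕ) [NeZero ℓ]

/-- **the Hecke norm** `u(q^ℓ) · ∏_b u(ζ^b q^{1/ℓ})` on Laurent series over any ring -/
noncomputable def heckeNorm (u : LaurentSeries R) : LaurentSeries R :=
  qExpand R ℓ u * normL ℓ u

theorem heckeNorm_mul (u v : LaurentSeries R) :
    heckeNorm ℓ (u * v) = heckeNorm ℓ u * heckeNorm ℓ v := by
  rw [heckeNorm, heckeNorm, heckeNorm, map_mul, normL_mul]; ring

theorem heckeNorm_one : heckeNorm ℓ (1 : LaurentSeries R) = 1 := by
  rw [heckeNorm, map_one, normL_one, one_mul]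

/-- `heckeNorm` as a monoid homomorphism -/
noncomputable def heckeNormHom : LaurentSeries R →* LaurentSeries R where
  toFun := heckeNorm ℓ
  map_one' := heckeNorm_one ℓ
  map_mul' := heckeNorm_mul ℓ

theorem heckeNorm_pow (u : LaurentSeries R) (n : ℕ) :
    heckeNorm ℓ (u ^ n) = heckeNorm ℓ u ^ n :=
  map_pow (heckeNormHom ℓ) u n

/-- the Hecke norm commutes with coefficientwise ring homomorphisms (Galois action, reduction) -/
theorem coeffMap_heckeNorm {S : Type*} [CommRing S] (f : R →+* S) (u : LaurentSeries R) :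
    coeffMap f (heckeNorm ℓ u) = heckeNorm ℓ (coeffMap f u) := by
  rw [heckeNorm, heckeNorm, map_mul, coeffMap_qExpand, coeffMap_normL]

theorem normL_C (c : R) : normL ℓ (HahnSeries.C c : LaurentSeries R) = HahnSeries.C (c ^ ℓ) := by
  have h := normL_qExpand ℓ (HahnSeries.C c : LaurentSeries R)
  rw [qExpand_C] at h
  rw [h, map_pow]

theorem heckeNorm_C (c : R) :
    heckeNorm ℓ (HahnSeries.C c : LaurentSeries R) = HahnSeries.C (c ^ (ℓ + 1)) := by
  rw [heckeNorm, qExpand_C, normL_C, ← map_mul, pow_succ']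

theorem heckeNorm_ne_zero [IsDomain R] {u : LaurentSeries R}
    (hN : normL ℓ u ≠ 0) (hu : u ≠ 0) : heckeNorm ℓ u ≠ 0 := by
  rw [heckeNorm]
  refine mul_ne_zero ?_ hN
  intro h
  exact hu (qExpand_injective (R := R) (N := ℓ) (by rw [h, map_zero]))

end HeckeNorm

end Fermat.Agent.GJ.Kum
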