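/-
GATE-J / J4-KUMTYPE (helper42): the concrete Kummer model
`kumModel N p … : J4Asm.KumModel N p` on helper99's shared Kummer group
`K := Additive (KumGroup.Kum Kb (FK N) p)`  (`= {u ∈ F_Nˣ | p ∣ div u} / (F_Nˣ)^p`).

* generic part (`kumEnd`): a monoid endomorphism of `Fˣ` preserving `pDivUnits` induces a
  `ZMod p`-linear endomorphism of `Additive (Kum K F p)`;
* `galUnits σ` / `gal N p` : the coefficientwise Galois action;
* `heckeUnits` / `TEnd` : the multiplicative Hecke operator `heckeNormSeries ℓ` on representatives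
  (needs `HNMemHyp`, `HNDivHyp`);
* `kumModel` : the `KumModel`, the Eichler–Shimura inputs `ESInertiaHyp`, `ESFrobHyp` being
  explicit hypotheses (element level, helper44's IFACE:ES draft, board 1279(3));
* API: `gal_mk`, `T_mk`, `kumModel_K`, `kumModel_gal`, `kumModel_T`.
-/
import Mathlib
import Fermat.Agent.GJ.J2.EigIface
import Fermat.Agent.GJ.J4.ESModule
import Fermat.Agent.GJ.FiniteLevel
import Fermat.Agent.GJ.Kum.HeckeNorm
import Fermat.Agent.GJ.Kum.GalDiv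

set_option autoImplicit false

noncomputable section

namespace Fermat.Agent.GJ.Kum.KumType

open AlgebraicCurve ModularCurve Fermat.Agent.GJ.KumGroup

local notation "GQ" => (AlgebraicClosure ℚ ≃ₐ[ℚ] AlgebraicClosure ℚ)

/-! ### Generic part -/

section Generic

variable {K F : Type*} [Field K] [Field F] [Algebra K F] {p : ℕ}

/-- `p` kills the Kummer group. -/
theorem nsmul_eq_zero (x : Additive (Kum K F p)) : p • x = 0 := by
  obtain ⟨u, hu⟩ := Kum.mk_surjective (Additive.toMul x)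
  have h1 : (Kum.mk u) ^ p = 1 := by
    rw [← map_pow, ← map_one (Kum.mk : pDivUnits K F p →* Kum K F p)]
    refine (Kum.mk_eq_mk_iff).2 ⟨(u : Fˣ)⁻¹, ?_⟩
    rw [inv_pow]
    simp
  have h2 : x = Additive.ofMul (Kum.mk u) := by rw [hu]; rfl
  rw [h2, ← ofMul_pow, h1]
  rfl

/-- the `ZMod p`-module structure of the Kummer group -/
instance instModuleKum : Module (ZMod p) (Additive (Kum K F p)) :=
  AddCommGroup.zmodModule nsmul_eq_zero

/-- the restriction of an endomorphism of `Fˣ` preserving `pDivUnits` -/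
def restr (f : Fˣ →* Fˣ) (hf : ∀ u ∈ pDivUnits K F p, f u ∈ pDivUnits K F p) :
    pDivUnits K F p →* pDivUnits K F p where
  toFun u := ⟨f (u : Fˣ), hf u u.2⟩
  map_one' := Subtype.ext (map_one f)
  map_mul' a b := Subtype.ext (map_mul f (a : Fˣ) (b : Fˣ))

theorem restr_le (f : Fˣ →* Fˣ) (hf : ∀ u ∈ pDivUnits K F p, f u ∈ pDivUnits K F p) :
    pPowers K F p ≤ (pPowers K F p).comap (restr f hf) := by
  rintro u ⟨w, hw⟩
  refine ⟨f w, ?_⟩
  show (f w) ^ p = f (u : Fˣ)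
  rw [← map_pow]
  exact congrArg f hw

/-- the endomorphism of `Kum` induced by an endomorphism of `Fˣ` preserving `pDivUnits` -/
def kumMap (f : Fˣ →* Fˣ) (hf : ∀ u ∈ pDivUnits K F p, f u ∈ pDivUnits K F p) :
    Kum K F p →* Kum K F p :=
  (QuotientGroup.map (pPowers K F p) (pPowers K F p) (restr f hf) (restr_le f hf) :
    pDivUnits K F p ⧸ pPowers K F p →* pDivUnits K F p ⧸ pPowers K F p)

theorem kumMap_mk (f : Fˣ →* Fˣ) (hf : ∀ u ∈ pDivUnits K F p, f u ∈ pDivUnits K F p)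
    (u : pDivUnits K F p) :
    kumMap f hf (Kum.mk u) = Kum.mk ⟨f u, hf u u.2⟩ := rfl

/-- the `ZMod p`-linear endomorphism of `Additive Kum` induced by `f` -/
def kumEnd (f : Fˣ →* Fˣ) (hf : ∀ u ∈ pDivUnits K F p, f u ∈ pDivUnits K F p) :
    Module.End (ZMod p) (Additive (Kum K F p)) :=
  (MonoidHom.toAdditive (kumMap f hf)).toZModLinearMap p

theorem kumEnd_mk (f : Fˣ →* Fˣ) (hf : ∀ u ∈ pDivUnits K F p, f u ∈ pDivUnits K F p)
    (u : pDivUnits K F p) :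
    kumEnd f hf (Additive.ofMul (Kum.mk u)) = Additive.ofMul (Kum.mk ⟨f u, hf u u.2⟩) := rfl

/-- every element of `Additive Kum` is the class of a `p`-divisible unit -/
theorem exists_rep (x : Additive (Kum K F p)) :
    ∃ u : pDivUnits K F p, x = Additive.ofMul (Kum.mk u) := by
  obtain ⟨u, hu⟩ := Kum.mk_surjective (Additive.toMul x)
  exact ⟨u, by rw [hu]; rfl⟩

theorem kumEnd_congr {f g : Fˣ →* Fˣ} (hf : ∀ u ∈ pDivUnits K F p, f u ∈ pDivUnits K F p)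
    (hg : ∀ u ∈ pDivUnits K F p, g u ∈ pDivUnits K F p)
    (h : ∀ u ∈ pDivUnits K F p, f u = g u) : kumEnd f hf = kumEnd g hg := by
  refine LinearMap.ext fun x => ?_
  obtain ⟨u, rfl⟩ := exists_rep x
  rw [kumEnd_mk, kumEnd_mk]
  exact congrArg (fun v => Additive.ofMul (Kum.mk v)) (Subtype.ext (h u u.2))

theorem kumEnd_mul (f g : Fˣ →* Fˣ) (hf : ∀ u ∈ pDivUnits K F p, f u ∈ pDivUnits K F p)
    (hg : ∀ u ∈ pDivUnits K F p, g u ∈ pDivUnits K F p) :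
    kumEnd f hf * kumEnd g hg =
      kumEnd (f.comp g) (fun u hu => hf (g u) (hg u hu)) := by
  refine LinearMap.ext fun x => ?_
  obtain ⟨u, rfl⟩ := exists_rep x
  rfl

theorem kumEnd_id :
    kumEnd (MonoidHom.id Fˣ) (fun u (hu : u ∈ pDivUnits K F p) => hu) = 1 := by
  refine LinearMap.ext fun x => ?_
  obtain ⟨u, rfl⟩ := exists_rep x
  rfl

/-- two classes agree as soon as the representatives differ by a `p`-th power -/
theorem ofMul_mk_eq_of {u v : pDivUnits K F p} (w : Fˣ) (h : (v : Fˣ) = u * w ^ p) :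
    (Additive.ofMul (Kum.mk u) : Additive (Kum K F p)) = Additive.ofMul (Kum.mk v) :=
  congrArg Additive.ofMul ((Kum.mk_eq_mk_iff).2 ⟨w, h⟩)

end Generic

/-! ### The Galois action -/

section Galois

variable (N p : ℕ)

/-- the coefficientwise Galois action on the units of `F_N` -/
def galUnits (σ : GQ) : (FK N)ˣ →* (FK N)ˣ :=
  Units.map ((arithmeticRingAut (modularFunctionFieldFull N) σ : FK N ≃+* FK N) : FK N →* FK N)

@[simp]
theorem coe_galUnits (σ : GQ) (u : (FK N)ˣ) :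
    ((galUnits N σ u : (FK N)ˣ) : FK N) = arithmeticRingAut (modularFunctionFieldFull N) σ u :=
  rfl

theorem galUnits_mem (σ : GQ) (u : (FK N)ˣ) (hu : u ∈ pDivUnits Kb (FK N) p) :
    galUnits N σ u ∈ pDivUnits Kb (FK N) p :=
  GalDiv.galDiv N p σ hu

theorem arithmeticRingAut_mul_apply (σ τ : GQ) (x : FK N) :
    arithmeticRingAut (modularFunctionFieldFull N) (σ * τ) x =
      arithmeticRingAut (modularFunctionFieldFull N) σ
        (arithmeticRingAut (modularFunctionFieldFull N) τ x) := by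
  refine Subtype.ext ?_
  show coeffMap ((σ * τ : GQ) : Kb →+* Kb) (x : LaurentSeries Kb)
      = coeffMap (σ : Kb →+* Kb) (coeffMap (τ : Kb →+* Kb) (x : LaurentSeries Kb))
  rw [coeffMap_coeffMap]
  exact coeffMap_congr (RingHom.ext fun _ => rfl) _

theorem arithmeticRingAut_one_apply (x : FK N) :
    arithmeticRingAut (modularFunctionFieldFull N) (1 : GQ) x = x := by
  refine Subtype.ext ?_
  show coeffMap ((1 : GQ) : Kb →+* Kb) (x : LaurentSeries Kb) = (x : LaurentSeries Kb)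
  rw [show ((1 : GQ) : Kb →+* Kb) = RingHom.id Kb from RingHom.ext fun _ => rfl, coeffMap_id]

/-- **the Galois action on the Kummer group** -/
def gal : GQ →* Module.End (ZMod p) (Additive (Kum Kb (FK N) p)) where
  toFun σ := kumEnd (galUnits N σ) (galUnits_mem N p σ)
  map_one' := by
    rw [← kumEnd_id]
    refine kumEnd_congr _ _ fun u _ => Units.ext ?_
    exact arithmeticRingAut_one_apply N u
  map_mul' σ τ := by
    rw [kumEnd_mul]
    refine kumEnd_congr _ _ fun u _ => Units.ext ?_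
    exact arithmeticRingAut_mul_apply N σ τ u

theorem gal_mk (σ : GQ) (u : pDivUnits Kb (FK N) p) :
    gal N p σ (Additive.ofMul (Kum.mk u)) =
      Additive.ofMul (Kum.mk ⟨galUnits N σ u, galUnits_mem N p σ u u.2⟩) := rfl

/-- every class has a finite-level stabiliser -/
theorem gal_level (x : Additive (Kum Kb (FK N) p)) :
    FiniteLevel.HasLevel (fun σ => gal N p σ x = x) := by
  obtain ⟨u, rfl⟩ := exists_rep x
  refine (FiniteLevel.hasLevel_arithmeticRingAut_eq (modularFunctionFieldFull N)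
    ((u : (FK N)ˣ) : FK N)).mono fun σ hσ => ?_
  rw [gal_mk]
  exact congrArg (fun v => Additive.ofMul (Kum.mk v)) (Subtype.ext (Units.ext hσ))

end Galois

/-! ### The Hecke operators -/

section Hecke

/-- (HN1, helper82) the Hecke norm of a modular function of level `N` is one -/
def HNMemHyp (N ℓ : ℕ) : Prop :=
  ∀ [NeZero ℓ] (u : LaurentSeries Kb), u ∈ modularFunctionFieldBar N →
    heckeNormSeries ℓ u ∈ modularFunctionFieldBar N

/-- (HN2, helper43/helper4) the Hecke norm preserves "`p` divides the divisor" -/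
def HNDivHyp (N p ℓ : ℕ) : Prop :=
  ∀ [NeZero ℓ] (u x : FK N), u ≠ 0 →
    (x : LaurentSeries Kb) = heckeNormSeries ℓ (u : LaurentSeries Kb) →
    (∀ P : Place Kb (FK N), (p : ℤ) ∣ P.ord u) → ∀ P : Place Kb (FK N), (p : ℤ) ∣ P.ord x

theorem heckeNormSeries_eq {R : Type*} [CommRing R] (ℓ : ℕ) [NeZero ℓ] (u : LaurentSeries R) :
    heckeNormSeries ℓ u = heckeNorm ℓ u := rfl

variable {N : ℕ} {ℓ : ℕ} [NeZero ℓ]

/-- the Hecke norm as a monoid endomorphism of `F_N` -/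
def heckeHom (hM : HNMemHyp N ℓ) : FK N →* FK N where
  toFun x := ⟨heckeNormSeries ℓ (x : LaurentSeries Kb), hM _ x.2⟩
  map_one' := Subtype.ext (heckeNorm_one ℓ)
  map_mul' _ _ := Subtype.ext (heckeNorm_mul ℓ _ _)

@[simp]
theorem coe_heckeHom (hM : HNMemHyp N ℓ) (x : FK N) :
    ((heckeHom hM x : FK N) : LaurentSeries Kb) = heckeNormSeries ℓ (x : LaurentSeries Kb) := rfl

/-- the Hecke norm on the units of `F_N` -/
def heckeUnits (hM : HNMemHyp N ℓ) : (FK N)ˣ →* (FK N)ˣ := Units.map (heckeHom hM)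

@[simp]
theorem coe_heckeUnits (hM : HNMemHyp N ℓ) (u : (FK N)ˣ) :
    (((heckeUnits hM u : (FK N)ˣ) : FK N) : LaurentSeries Kb) =
      heckeNormSeries ℓ (((u : (FK N)ˣ) : FK N) : LaurentSeries Kb) := rfl

variable {p : ℕ}

theorem heckeUnits_mem (hM : HNMemHyp N ℓ) (hD : HNDivHyp N p ℓ) (u : (FK N)ˣ)
    (hu : u ∈ pDivUnits Kb (FK N) p) : heckeUnits hM u ∈ pDivUnits Kb (FK N) p :=
  hD (u : FK N) _ u.ne_zero rfl hu

/-- the Hecke operator on the Kummer group, for `ℓ` with the two (HN) inputs -/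
def TEnd (hM : HNMemHyp N ℓ) (hD : HNDivHyp N p ℓ) :
    Module.End (ZMod p) (Additive (Kum Kb (FK N) p)) :=
  kumEnd (heckeUnits hM) (heckeUnits_mem hM hD)

theorem TEnd_mk (hM : HNMemHyp N ℓ) (hD : HNDivHyp N p ℓ) (u : pDivUnits Kb (FK N) p) :
    TEnd hM hD (Additive.ofMul (Kum.mk u)) =
      Additive.ofMul (Kum.mk ⟨heckeUnits hM u, heckeUnits_mem hM hD u u.2⟩) := rfl

/-- the Hecke norm commutes with the coefficientwise Galois action -/
theorem heckeUnits_galUnits (hM : HNMemHyp N ℓ) (σ : GQ) (u : (FK N)ˣ) :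
    heckeUnits hM (galUnits N σ u) = galUnits N σ (heckeUnits hM u) := by
  refine Units.ext (Subtype.ext ?_)
  show heckeNormSeries ℓ (coeffMap (σ : Kb →+* Kb) _) =
    coeffMap (σ : Kb →+* Kb) (heckeNormSeries ℓ _)
  rw [heckeNormSeries_eq, heckeNormSeries_eq, coeffMap_heckeNorm]

theorem TEnd_comm_gal (hM : HNMemHyp N ℓ) (hD : HNDivHyp N p ℓ) (σ : GQ) :
    TEnd hM hD * gal N p σ = gal N p σ * TEnd hM hD := by
  show kumEnd _ _ * kumEnd _ _ = kumEnd _ _ * kumEnd _ _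
  rw [kumEnd_mul, kumEnd_mul]
  exact kumEnd_congr _ _ fun u _ => heckeUnits_galUnits hM σ u

end Hecke

/-! ### The Eichler–Shimura inputs (element level) and the model -/

section Model

/-- (ES-inertia) inertia at `ℓ` moves a `p`-divisible unit by a `p`-th power -/
def ESInertiaHyp (N p ℓ : ℕ) : Prop :=
  ∀ A : ValuationSubring Kb, A.LiesOverPrime ℓ → ∀ s ∈ A.inertiaSubgroupIn ℚ,
    ∀ u : FK N, u ≠ 0 → (∀ P : Place Kb (FK N), (p : ℤ) ∣ P.ord u) →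
      ∃ v : FK N, v ≠ 0 ∧ arithmeticRingAut (modularFunctionFieldFull N) s u = u * v ^ p

/-- (ES-Frobenius) the Eichler–Shimura relation `Frob² · ℓ = T_ℓ ∘ Frob` up to `p`-th powers -/
def ESFrobHyp (N p ℓ : ℕ) : Prop :=
  ∀ [NeZero ℓ] (A : ValuationSubring Kb), A.LiesOverPrime ℓ → ∀ s : GQ, A.IsFrobeniusAt s ℓ →
    ∀ u : FK N, u ≠ 0 → (∀ P : Place Kb (FK N), (p : ℤ) ∣ P.ord u) →
      ∃ v : FK N, v ≠ 0 ∧
        (((arithmeticRingAut (modularFunctionFieldFull N) s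
            (arithmeticRingAut (modularFunctionFieldFull N) s u) * u ^ ℓ : FK N)) :
            LaurentSeries Kb) =
          heckeNormSeries ℓ
            ((arithmeticRingAut (modularFunctionFieldFull N) s u : FK N) : LaurentSeries Kb) *
            (v : LaurentSeries Kb) ^ p

variable (N p : ℕ)

open Classical in
/-- the family of Hecke operators: `TEnd` at the primes `ℓ ∤ N`, `0` elsewhere -/
def TFam (hM : ∀ ℓ : ℕ, ℓ.Prime → ¬ ℓ ∣ N → HNMemHyp N ℓ)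
    (hD : ∀ ℓ : ℕ, ℓ.Prime → ¬ ℓ ∣ N → HNDivHyp N p ℓ) (ℓ : ℕ) :
    Module.End (ZMod p) (Additive (Kum Kb (FK N) p)) :=
  if h : ℓ.Prime ∧ ¬ ℓ ∣ N then
    @TEnd N ℓ ⟨h.1.ne_zero⟩ p (hM ℓ h.1 h.2) (hD ℓ h.1 h.2)
  else 0

theorem TFam_of_prime (hM : ∀ ℓ : ℕ, ℓ.Prime → ¬ ℓ ∣ N → HNMemHyp N ℓ)
    (hD : ∀ ℓ : ℕ, ℓ.Prime → ¬ ℓ ∣ N → HNDivHyp N p ℓ) {ℓ : ℕ} (hℓ : ℓ.Prime) (hℓN : ¬ ℓ ∣ N) :
    TFam N p hM hD ℓ = @TEnd N ℓ ⟨hℓ.ne_zero⟩ p (hM ℓ hℓ hℓN) (hD ℓ hℓ hℓN) := by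
  unfold TFam
  rw [dif_pos ⟨hℓ, hℓN⟩]

theorem TFam_of_not (hM : ∀ ℓ : ℕ, ℓ.Prime → ¬ ℓ ∣ N → HNMemHyp N ℓ)
    (hD : ∀ ℓ : ℕ, ℓ.Prime → ¬ ℓ ∣ N → HNDivHyp N p ℓ) {ℓ : ℕ} (h : ¬ (ℓ.Prime ∧ ¬ ℓ ∣ N)) :
    TFam N p hM hD ℓ = 0 := by
  unfold TFam
  rw [dif_neg h]

theorem TFam_comm_gal (hM : ∀ ℓ : ℕ, ℓ.Prime → ¬ ℓ ∣ N → HNMemHyp N ℓ)
    (hD : ∀ ℓ : ℕ, ℓ.Prime → ¬ ℓ ∣ N → HNDivHyp N p ℓ) (ℓ : ℕ) (σ : GQ) :
    TFam N p hM hD ℓ * gal N p σ = gal N p σ * TFam N p hM hD ℓ := by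
  by_cases h : ℓ.Prime ∧ ¬ ℓ ∣ N
  · rw [TFam_of_prime N p hM hD h.1 h.2]
    exact @TEnd_comm_gal N ℓ ⟨h.1.ne_zero⟩ p _ _ σ
  · rw [TFam_of_not N p hM hD h, zero_mul, mul_zero]

/-- inertia acts trivially -/
theorem gal_eq_one_of_inertia {ℓ : ℕ} (hI : ESInertiaHyp N p ℓ) (A : ValuationSubring Kb)
    (hA : A.LiesOverPrime ℓ) (σ : GQ) (hσ : σ ∈ A.inertiaSubgroupIn ℚ) : gal N p σ = 1 := by
  refine LinearMap.ext fun x => ?_
  obtain ⟨u, rfl⟩ := exists_rep x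
  obtain ⟨v, hv, huv⟩ := hI A hA σ hσ ((u : (FK N)ˣ) : FK N) (u : (FK N)ˣ).ne_zero u.2
  rw [gal_mk]
  refine (ofMul_mk_eq_of (Units.mk0 v hv) ?_).symm
  refine Units.ext ?_
  show arithmeticRingAut (modularFunctionFieldFull N) σ ((u : (FK N)ˣ) : FK N) = _
  rw [huv]
  simp

/-- the Eichler–Shimura relation on the Kummer group -/
theorem gal_frob {ℓ : ℕ} (hℓ : ℓ.Prime)
    (hM : HNMemHyp N ℓ) (hD : HNDivHyp N p ℓ) (hF : ESFrobHyp N p ℓ)
    (A : ValuationSubring Kb) (hA : A.LiesOverPrime ℓ) (τ : GQ) (hτ : A.IsFrobeniusAt τ ℓ) :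
    gal N p τ * gal N p τ - @TEnd N ℓ ⟨hℓ.ne_zero⟩ p hM hD * gal N p τ
      + (ℓ : ZMod p) • (1 : Module.End (ZMod p) (Additive (Kum Kb (FK N) p))) = 0 := by
  have : NeZero ℓ := ⟨hℓ.ne_zero⟩
  refine LinearMap.ext fun x => ?_
  obtain ⟨u, rfl⟩ := exists_rep x
  obtain ⟨v, hv, huv⟩ := hF A hA τ hτ ((u : (FK N)ˣ) : FK N) (u : (FK N)ˣ).ne_zero u.2
  -- the two sides as classes
  set a : pDivUnits Kb (FK N) p :=
    ⟨galUnits N τ (galUnits N τ u), galUnits_mem N p τ _ (galUnits_mem N p τ u u.2)⟩ with ha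
  set b : pDivUnits Kb (FK N) p :=
    ⟨heckeUnits hM (galUnits N τ u), heckeUnits_mem hM hD _ (galUnits_mem N p τ u u.2)⟩ with hb
  have key : (Additive.ofMul (Kum.mk b) : Additive (Kum Kb (FK N) p)) =
      Additive.ofMul (Kum.mk (a * u ^ ℓ)) := by
    refine ofMul_mk_eq_of (Units.mk0 v hv) ?_
    refine Units.ext (Subtype.ext ?_)
    have h1 : ((((a * u ^ ℓ : pDivUnits Kb (FK N) p) : (FK N)ˣ) : FK N) : LaurentSeries Kb) =
        ((arithmeticRingAut (modularFunctionFieldFull N) τ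
            (arithmeticRingAut (modularFunctionFieldFull N) τ ((u : (FK N)ˣ) : FK N)) *
            ((u : (FK N)ˣ) : FK N) ^ ℓ : FK N) : LaurentSeries Kb) := by
      simp [ha]
    rw [h1, huv]
    simp [hb]
  have h2 : (Additive.ofMul (Kum.mk (a * u ^ ℓ)) : Additive (Kum Kb (FK N) p)) =
      Additive.ofMul (Kum.mk a) + ℓ • Additive.ofMul (Kum.mk u) := by
    rw [map_mul, map_pow, ofMul_mul, ofMul_pow]
  show gal N p τ (gal N p τ (Additive.ofMul (Kum.mk u)))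
      - TEnd hM hD (gal N p τ (Additive.ofMul (Kum.mk u)))
      + (ℓ : ZMod p) • Additive.ofMul (Kum.mk u) = 0
  rw [gal_mk, gal_mk, TEnd_mk, Nat.cast_smul_eq_nsmul]
  show Additive.ofMul (Kum.mk a) - Additive.ofMul (Kum.mk b) + ℓ • Additive.ofMul (Kum.mk u) = 0
  rw [key, h2]
  abel

/-- **the Kummer model of `J₀(N)[p]`** (J4-KUMTYPE) -/
def kumModel (hM : ∀ ℓ : ℕ, ℓ.Prime → ¬ ℓ ∣ N → HNMemHyp N ℓ)
    (hD : ∀ ℓ : ℕ, ℓ.Prime → ¬ ℓ ∣ N → HNDivHyp N p ℓ)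
    (hI : ∀ ℓ : ℕ, ℓ.Prime → ¬ ℓ ∣ N * p → ESInertiaHyp N p ℓ)
    (hF : ∀ ℓ : ℕ, ℓ.Prime → ¬ ℓ ∣ N * p → ESFrobHyp N p ℓ) : J4Asm.KumModel N p where
  K := Additive (Kum Kb (FK N) p)
  gal := gal N p
  T := TFam N p hM hD
  T_comm_gal := TFam_comm_gal N p hM hD
  level := gal_level N p
  inertia := fun ℓ hℓ hℓNp A hA σ hσ => gal_eq_one_of_inertia N p (hI ℓ hℓ hℓNp) A hA σ hσ
  frob := fun ℓ hℓ hℓNp A hA τ hτ => by
    have hℓN : ¬ ℓ ∣ N := fun h => hℓNp (dvd_mul_of_dvd_left h p)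
    rw [TFam_of_prime N p hM hD hℓ hℓN]
    exact gal_frob N p hℓ (hM ℓ hℓ hℓN) (hD ℓ hℓ hℓN) (hF ℓ hℓ hℓNp) A hA τ hτ

/-! ### API for the consumers (J2 adapter, J4 assembly) -/

section API

variable {N p}
variable (hM : ∀ ℓ : ℕ, ℓ.Prime → ¬ ℓ ∣ N → HNMemHyp N ℓ)
  (hD : ∀ ℓ : ℕ, ℓ.Prime → ¬ ℓ ∣ N → HNDivHyp N p ℓ)
  (hI : ∀ ℓ : ℕ, ℓ.Prime → ¬ ℓ ∣ N * p → ESInertiaHyp N p ℓ)
  (hF : ∀ ℓ : ℕ, ℓ.Prime → ¬ ℓ ∣ N * p → ESFrobHyp N p ℓ)

theorem kumModel_K : (kumModel N p hM hD hI hF).K = Additive (Kum Kb (FK N) p) := rfl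

theorem kumModel_instModule :
    (kumModel N p hM hD hI hF).instModule =
      (instModuleKum : Module (ZMod p) (Additive (Kum Kb (FK N) p))) := rfl

theorem kumModel_gal : (kumModel N p hM hD hI hF).gal = gal N p := rfl

theorem kumModel_T : (kumModel N p hM hD hI hF).T = TFam N p hM hD := rfl

/-- the class of a `p`-divisible unit, as an element of the model -/
def cls (u : pDivUnits Kb (FK N) p) : (kumModel N p hM hD hI hF).K :=
  Additive.ofMul (Kum.mk u)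

theorem cls_surjective : Function.Surjective (cls hM hD hI hF) := fun x => by
  obtain ⟨u, rfl⟩ := exists_rep (K := Kb) (F := FK N) (p := p) x
  exact ⟨u, rfl⟩

theorem cls_mul (u v : pDivUnits Kb (FK N) p) :
    cls hM hD hI hF (u * v) = cls hM hD hI hF u + cls hM hD hI hF v := by
  show (Additive.ofMul (Kum.mk (u * v)) : Additive (Kum Kb (FK N) p)) = _
  rw [map_mul, ofMul_mul]
  rfl

theorem cls_eq_cls_iff {u v : pDivUnits Kb (FK N) p} :
    cls hM hD hI hF u = cls hM hD hI hF v ↔ ∃ w : (FK N)ˣ, (v : (FK N)ˣ) = u * w ^ p := by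
  rw [← Kum.mk_eq_mk_iff]
  exact Additive.ofMul.injective.eq_iff

theorem kumModel_gal_cls (σ : GQ) (u : pDivUnits Kb (FK N) p) :
    (kumModel N p hM hD hI hF).gal σ (cls hM hD hI hF u) =
      cls hM hD hI hF ⟨galUnits N σ u, galUnits_mem N p σ u u.2⟩ := rfl

/-- **`T_mk`, relational form** (the shape of `KumGroup.EIG`): if the series of `u'` is the
Hecke norm of the series of `u`, then `T ℓ [u] = [u']`. -/
theorem kumModel_T_cls_of_eq {ℓ : ℕ} (hℓ : ℓ.Prime) (hℓN : ¬ ℓ ∣ N)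
    (u u' : pDivUnits Kb (FK N) p)
    (h : ((((u' : pDivUnits Kb (FK N) p) : (FK N)ˣ) : FK N) : LaurentSeries Kb) =
      @heckeNormSeries Kb _ ℓ ⟨hℓ.ne_zero⟩
        ((((u : pDivUnits Kb (FK N) p) : (FK N)ˣ) : FK N) : LaurentSeries Kb)) :
    (kumModel N p hM hD hI hF).T ℓ (cls hM hD hI hF u) = cls hM hD hI hF u' := by
  have : NeZero ℓ := ⟨hℓ.ne_zero⟩
  show TFam N p hM hD ℓ (Additive.ofMul (Kum.mk u)) = Additive.ofMul (Kum.mk u')
  rw [TFam_of_prime N p hM hD hℓ hℓN, TEnd_mk]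
  refine congrArg (fun v => Additive.ofMul (Kum.mk v)) (Subtype.ext (Units.ext (Subtype.ext ?_)))
  exact h.symm

/-- `T ℓ = 0` outside the primes not dividing `N` -/
theorem kumModel_T_of_not {ℓ : ℕ} (h : ¬ (ℓ.Prime ∧ ¬ ℓ ∣ N)) :
    (kumModel N p hM hD hI hF).T ℓ = 0 := TFam_of_not N p hM hD h

end API

end Model

end Fermat.Agent.GJ.Kum.KumType
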