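/-
GATE-J / J3-KUM, brick ZETA (helper61): the root-of-unity form of the norm `normL`.

For a domain `R`, a prime-free statement: if `z : Rˣ` is a primitive `ℓ`-th root of unity then
  `qExpand R ℓ (normL ℓ u) = ∏_{b < ℓ} scaleHom R (z ^ b) u`,
i.e. `N_ℓ(u)(t^ℓ) = ∏_b u(z^b t)`.  `scaleHom` is `Fermat.Agent.S28.scaleHom` (`q ↦ c q`).

namespace Fermat.Agent.GJ.Kum.  Imports: helper44's `GJ/Kum/NormSeries.lean`, `S28/Defs.lean`
(for `scaleHom`), helper20's `S16/Conj/QCirc.lean` (via NormSeries).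
-/
import Mathlib
import Fermat.Agent.GJ.Kum.NormSeries
import Fermat.Agent.GJ.Kum.HeckeNorm
import Fermat.Agent.S28.Defs

set_option autoImplicit false

namespace Fermat.Agent.GJ.Kum

open HahnSeries ModularCurve Finset Matrix
open Fermat.Agent.S16.Conj (qcirc qcirc_map vandermonde_mul_qcirc)
open Fermat.Agent.S28 (scaleHom scaleHom_coeff)

variable {R : Type*} [CommRing R]

section Scale

variable (ℓ : ℕ) [NeZero ℓ]

/-- `q ↦ c q` on a monomial -/
theorem scaleHom_single (c : Rˣ) (k : ℤ) (r : R) :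
    scaleHom R c (HahnSeries.single k r) = HahnSeries.single k (((c ^ k : Rˣ) : R) * r) := by
  ext m
  rw [scaleHom_coeff]
  by_cases h : m = k
  · subst h
    rw [HahnSeries.coeff_single_same, HahnSeries.coeff_single_same]
  · rw [HahnSeries.coeff_single_of_ne h, HahnSeries.coeff_single_of_ne h, mul_zero]

/-- `q ↦ c q` fixes series in `q^ℓ` when `c ^ ℓ = 1` -/
theorem scaleHom_qExpand_of_pow_eq_one (c : Rˣ) (hc : c ^ ℓ = 1) (x : LaurentSeries R) :
    scaleHom R c (qExpand R ℓ x) = qExpand R ℓ x := by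
  ext m
  rw [scaleHom_coeff]
  by_cases hm : (ℓ : ℤ) ∣ m
  · obtain ⟨k, rfl⟩ := hm
    have h1 : c ^ ((ℓ : ℤ) * k) = 1 := by
      rw [_root_.zpow_mul, zpow_natCast, hc, _root_.one_zpow]
    rw [h1, Units.val_one, one_mul]
  · rw [qExpand_coeff_of_not_dvd ℓ x hm, mul_zero]

/-- the value of `u` at `c t`, `c ^ ℓ = 1`, in terms of the `ℓ`-sections -/
theorem scaleHom_eq_sum_sect (c : Rˣ) (hc : c ^ ℓ = 1) (u : LaurentSeries R) :
    scaleHom R c u =
      ∑ i ∈ range ℓ, qExpand R ℓ (sect ℓ i u) *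
        (HahnSeries.single (1 : ℤ) ((c : Rˣ) : R)) ^ i := by
  conv_lhs => rw [decomp ℓ u]
  rw [map_sum]
  refine sum_congr rfl fun i _ => ?_
  rw [map_mul, scaleHom_qExpand_of_pow_eq_one ℓ c hc, tpow, scaleHom_single, mul_one,
    HahnSeries.single_pow, nsmul_eq_mul, mul_one, zpow_natCast, Units.val_pow_eq_pow_val, mul_comm]

end Scale

section Det

variable (ℓ : ℕ) [NeZero ℓ]

/-- determinant of a twisted circulant over a domain: the product over the roots of `t^ℓ = q` -/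
theorem det_qcirc_eq_prod {A : Type*} [CommRing A] [IsDomain A] (c : ℕ → A) (s : Fin ℓ → A)
    (q : A) (hs : ∀ m, s m ^ ℓ = q) (hinj : Function.Injective s) :
    (qcirc ℓ c q).det = ∏ m : Fin ℓ, ∑ i ∈ range ℓ, c i * s m ^ i := by
  have hVQ := vandermonde_mul_qcirc ℓ c s q hs
  have hdet : (vandermonde s).det ≠ 0 := det_vandermonde_ne_zero_iff.mpr hinj
  have h2 := congrArg Matrix.det hVQ
  rw [Matrix.det_mul, Matrix.det_mul, Matrix.det_diagonal, mul_comm] at h2
  exact mul_right_cancel₀ hdet h2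

end Det

section Main

variable (ℓ : ℕ) [NeZero ℓ]

/-- **root-of-unity form of the norm**: `N_ℓ(u)(t^ℓ) = ∏_{b<ℓ} u(z^b t)` for a primitive `ℓ`-th
root of unity `z` in a domain. -/
theorem qExpand_normL_eq_prod [IsDomain R] (z : Rˣ) (hz : IsPrimitiveRoot (z : R) ℓ)
    (u : LaurentSeries R) :
    qExpand R ℓ (normL ℓ u) = ∏ b ∈ range ℓ, scaleHom R (z ^ b) u := by
  have hzℓ : z ^ ℓ = 1 := by
    apply Units.ext
    rw [Units.val_pow_eq_pow_val, hz.pow_eq_one, Units.val_one]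
  -- push `qExpand` through the determinant
  have h1 : qExpand R ℓ (normL ℓ u) =
      (qcirc ℓ (fun r => qExpand R ℓ (sect ℓ r u)) (HahnSeries.single ((ℓ : ℤ) * 1) (1 : R))).det := by
    rw [normL, RingHom.map_det, RingHom.mapMatrix_apply, mulMat, qcirc_map, qq, qExpand_single]
  rw [h1]
  -- the roots `s b = z^b t`
  set s : Fin ℓ → LaurentSeries R := fun b =>
    HahnSeries.single (1 : ℤ) (((z ^ (b : ℕ) : Rˣ) : Rˣ) : R) with hs
  have hsℓ : ∀ m, s m ^ ℓ = HahnSeries.single ((ℓ : ℤ) * 1) (1 : R) := by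
    intro m
    rw [hs]
    simp only
    rw [HahnSeries.single_pow, nsmul_eq_mul, ← Units.val_pow_eq_pow_val, ← pow_mul,
      mul_comm (m : ℕ) ℓ, pow_mul, hzℓ, one_pow, Units.val_one]
  have hinj : Function.Injective s := by
    intro a b hab
    have h2 : ((z ^ (a : ℕ) : Rˣ) : R) = ((z ^ (b : ℕ) : Rˣ) : R) :=
      HahnSeries.single_injective (1 : ℤ) hab
    rw [Units.val_pow_eq_pow_val, Units.val_pow_eq_pow_val] at h2
    exact Fin.ext (hz.pow_inj a.2 b.2 h2)
  rw [det_qcirc_eq_prod ℓ _ s _ hsℓ hinj,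
    ← Fin.prod_univ_eq_prod_range (fun b => scaleHom R (z ^ b) u) ℓ]
  refine Fintype.prod_congr _ _ fun b => ?_
  have hb : (z ^ (b : ℕ)) ^ ℓ = 1 := by
    rw [← pow_mul, mul_comm, pow_mul, hzℓ, one_pow]
  rw [scaleHom_eq_sum_sect ℓ (z ^ (b : ℕ)) hb u]

/-- the same with `z` given as an element of a field -/
theorem qExpand_normL_eq_prod_field {K : Type*} [Field K] {z : K} (hz : IsPrimitiveRoot z ℓ)
    (u : LaurentSeries K) :
    qExpand K ℓ (normL ℓ u) =
      ∏ b ∈ range ℓ, scaleHom K (Units.mk0 z (hz.ne_zero (NeZero.ne ℓ)) ^ b) u :=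
  qExpand_normL_eq_prod ℓ (Units.mk0 z (hz.ne_zero (NeZero.ne ℓ))) (by simpa using hz) u

/-- the Hecke norm in root-of-unity form: `(T u)(t^ℓ) = u(t^(ℓ·ℓ)) · ∏_{b<ℓ} u(z^b t)` -/
theorem qExpand_heckeNorm_eq_prod [IsDomain R] (z : Rˣ) (hz : IsPrimitiveRoot (z : R) ℓ)
    (u : LaurentSeries R) :
    qExpand R ℓ (heckeNorm ℓ u) =
      qExpand R ℓ (qExpand R ℓ u) * ∏ b ∈ range ℓ, scaleHom R (z ^ b) u := by
  rw [heckeNorm, map_mul, qExpand_normL_eq_prod ℓ z hz u]

theorem scaleHom_eq_zero_iff (c : Rˣ) (u : LaurentSeries R) : scaleHom R c u = 0 ↔ u = 0 := by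
  constructor
  · intro h
    ext m
    have h1 := congrArg (fun x : LaurentSeries R => x.coeff m) h
    simp only [scaleHom_coeff, HahnSeries.coeff_zero] at h1
    rw [HahnSeries.coeff_zero]
    exact (Units.mul_right_eq_zero _).mp h1
  · rintro rfl
    exact map_zero _

/-- over a domain containing a primitive `ℓ`-th root of unity the norm of a nonzero series is
nonzero -/
theorem normL_ne_zero_of_isPrimitiveRoot [IsDomain R] (z : Rˣ) (hz : IsPrimitiveRoot (z : R) ℓ)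
    {u : LaurentSeries R} (hu : u ≠ 0) : normL ℓ u ≠ 0 := by
  intro h
  have h1 := qExpand_normL_eq_prod ℓ z hz u
  rw [h, map_zero] at h1
  obtain ⟨b, -, hb⟩ := Finset.prod_eq_zero_iff.mp h1.symm
  exact hu ((scaleHom_eq_zero_iff (z ^ b) u).mp hb)

theorem heckeNorm_ne_zero_of_isPrimitiveRoot [IsDomain R] (z : Rˣ)
    (hz : IsPrimitiveRoot (z : R) ℓ) {u : LaurentSeries R} (hu : u ≠ 0) : heckeNorm ℓ u ≠ 0 :=
  heckeNorm_ne_zero ℓ (normL_ne_zero_of_isPrimitiveRoot ℓ z hz hu) hu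

end Main

end Fermat.Agent.GJ.Kum
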