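/-
GATE-J / J3-KUM (helper44), brick K2: the Kronecker congruence for the Hecke norm, on Laurent
series over a ring of characteristic `ℓ`:

* `pow_char_eq_qExpand`   : `y ^ ℓ = qExpand ℓ (coeffMap (frobenius k ℓ) y)`
* `normL_of_charP`        : `normL ℓ z = coeffMap (frobenius k ℓ) z`            (k a domain)
* `heckeNorm_frobenius`   : `heckeNorm ℓ (coeffMap frob y) = y ^ ℓ * coeffMap frob (coeffMap frob y)`
-/
import Fermat.Agent.GJ.Kum.HeckeNorm
set_option autoImplicit false
namespace Fermat.Agent.GJ.Kum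
open HahnSeries ModularCurve Finset

section PowerSeriesSide

variable {R : Type*} [CommRing R]

theorem coeffMap_ofPowerSeries {S : Type*} [CommRing S] (f : R →+* S) (v : PowerSeries R) :
    coeffMap f (HahnSeries.ofPowerSeries ℤ R v) =
      HahnSeries.ofPowerSeries ℤ S (PowerSeries.map f v) := by
  ext m
  rw [coeffMap_coeff, PowerSeries.coeff_coe, PowerSeries.coeff_coe]
  split_ifs with h
  · exact map_zero f
  · rw [PowerSeries.coeff_map]

theorem qExpand_ofPowerSeries (ℓ : ℕ) [NeZero ℓ] (v : PowerSeries R) :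
    qExpand R ℓ (HahnSeries.ofPowerSeries ℤ R v) =
      HahnSeries.ofPowerSeries ℤ R (PowerSeries.expand ℓ (NeZero.ne ℓ) v) := by
  have hℓ : (0 : ℤ) < ℓ := by exact_mod_cast Nat.pos_of_ne_zero (NeZero.ne ℓ)
  ext m
  rw [qExpand_coeff]
  conv_rhs => rw [PowerSeries.coeff_coe, PowerSeries.coeff_expand]
  by_cases hd : (ℓ : ℤ) ∣ m
  · obtain ⟨c, rfl⟩ := hd
    rw [if_pos (dvd_mul_right _ _), Int.mul_ediv_cancel_left _ hℓ.ne', PowerSeries.coeff_coe]
    by_cases hc : c < 0
    · rw [if_pos hc, if_pos (by nlinarith)]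
    · rw [if_neg hc, if_neg (by nlinarith)]
      push Not at hc
      have h1 : ((ℓ : ℤ) * c).natAbs = ℓ * c.natAbs := by
        rw [Int.natAbs_mul, Int.natAbs_natCast]
      rw [h1, if_pos (dvd_mul_right _ _), Nat.mul_div_cancel_left _ (Nat.pos_of_ne_zero (NeZero.ne ℓ))]
  · rw [if_neg hd]
    split_ifs with h1 h2
    · rfl
    · exfalso
      apply hd
      push Not at h1
      have : (ℓ : ℤ) ∣ (m.natAbs : ℤ) := by exact_mod_cast h2
      rwa [Int.natAbs_of_nonneg h1] at this
    · rfl

end PowerSeriesSide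

variable {k : Type*} [CommRing k] (ℓ : ℕ) [hℓ : Fact ℓ.Prime] [CharP k ℓ]

theorem powerSeries_pow_char (v : PowerSeries k) :
    v ^ ℓ = PowerSeries.map (frobenius k ℓ) (PowerSeries.expand ℓ hℓ.out.ne_zero v) := by
  have h := MvPowerSeries.map_frobenius_expand (σ := Unit) (R := k) ℓ hℓ.out.ne_zero (f := v)
  exact h.symm

theorem pow_char_eq_qExpand (y : LaurentSeries k) :
    y ^ ℓ = qExpand k ℓ (coeffMap (frobenius k ℓ) y) := by
  conv_lhs => rw [← LaurentSeries.single_order_mul_powerSeriesPart y]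
  conv_rhs => rw [← LaurentSeries.single_order_mul_powerSeriesPart y]
  rw [mul_pow, map_mul, map_mul, HahnSeries.single_pow]
  congr 1
  · rw [one_pow, coeffMap_single, qExpand_single, map_one (frobenius k ℓ), nsmul_eq_mul]
  · rw [coeffMap_ofPowerSeries, qExpand_ofPowerSeries, ← PowerSeries.map_expand,
      ← powerSeries_pow_char, PowerSeries.coe_pow]

omit hℓ in
theorem charP_laurentSeries : CharP (LaurentSeries k) ℓ :=
  charP_of_injective_ringHom (f := (HahnSeries.C : k →+* LaurentSeries k)) HahnSeries.C_injective ℓ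

/-- **Kronecker congruence for the norm**: in characteristic `ℓ`, `N_ℓ(z) = z^{(ℓ)}`
(coefficientwise Frobenius). -/
theorem normL_of_charP [IsDomain k] (z : LaurentSeries k) :
    normL ℓ z = coeffMap (frobenius k ℓ) z := by
  have : CharP (LaurentSeries k) ℓ := charP_laurentSeries ℓ
  have h1 : normL ℓ z ^ ℓ = (coeffMap (frobenius k ℓ) z) ^ ℓ := by
    rw [← normL_pow, pow_char_eq_qExpand ℓ z, normL_qExpand]
  exact frobenius_inj (LaurentSeries k) ℓ h1

/-- Hecke norm of a Frobenius twist in characteristic `ℓ` -/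
theorem heckeNorm_frobenius [IsDomain k] (y : LaurentSeries k) :
    heckeNorm ℓ (coeffMap (frobenius k ℓ) y) =
      y ^ ℓ * coeffMap (frobenius k ℓ) (coeffMap (frobenius k ℓ) y) := by
  rw [heckeNorm, ← pow_char_eq_qExpand, normL_of_charP]

end Fermat.Agent.GJ.Kum
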