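/-
GATE-J / J3-KUM (helper44), brick K3 = IFACE:ES.  The Eichler–Shimura relation and the
unramifiedness on the KUMMER MODEL of `J_0(N)[p]`:

  `Kum_p(F) = {u ∈ Fˣ | p ∣ ord_P u ∀ P} / (Fˣ)^p`,  `F = modularFunctionFieldBar N ⊂ ℚ̄((q))`,

stated on representatives (no quotient type):

* `ESInertia N p ℓ` : `σ` in the inertia group of any `A` over `ℓ`  ⟹  `σ u = u · v^p`;
* `ESFrob N p ℓ`    : `σ` a Frobenius lift at any `A` over `ℓ`  ⟹  `σ²u · u^ℓ = heckeNorm ℓ (σ u) · v^p`.

Inputs (hypothesis form):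
* `K18 A (residue A) N p`  (J1; `Fermat.Agent.GJ.S18.Front.K18`, helper40's canonical text),
* `GaussFracInt A N`       (J3-GU: `u = c · a / b`, `a, b` integral with nonzero reduction);
  `gaussFracInt_of_redMem` gets it from helper42's series form + `RedMem` (J1-VAL),
* `HNMem N ℓ`, `HNDiv N p ℓ` (J3-HN: the Hecke norm preserves `F` and `p ∣ div`).

Core: `kummer_of_num_den` (abstract Kummer lemma) + `red_frob_identity`
(`red (τ²y · y^ℓ) = red (heckeNorm ℓ (τ y))` for a Frobenius lift `τ`, from `Congruence.lean`).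
-/
import Fermat.Agent.GJ.Kum.Congruence
import Fermat.Agent.GJ.Kum.GalDiv
import Fermat.Agent.GJ.S18.FrontK18
import Fermat.Agent.GJ.J3.QSeries
import Fermat.Agent.S05.Inertia
import Fermat.Prelude.Def_EllipticCurve_FrobeniusTrace
import Fermat.Prelude.Def_FLTPrelim_Ramification

set_option autoImplicit false

namespace Fermat.Agent.GJ.Kum

open HahnSeries ModularCurve AlgebraicCurve IsLocalRing
open Fermat.Agent.GJ.S18.Front (IntRing elL K18 elL_mul elL_ne_zero mem_intRing)

section ResA

variable {K L : Type*} [Field K] [Field L] [Algebra K L] (A : ValuationSubring L)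

/-- restriction to `A` of an automorphism in the decomposition group of `A` -/
noncomputable def resA (σ : L ≃ₐ[K] L) (hσ : σ ∈ A.decompositionSubgroup K) : A →+* A :=
  RingHom.codRestrict ((σ : L →+* L).comp A.subtype) A
    (fun x => Fermat.Agent.S05.apply_mem_of_mem_decompositionSubgroup hσ x.2)

theorem coe_resA (σ : L ≃ₐ[K] L) (hσ : σ ∈ A.decompositionSubgroup K) (x : A) :
    ((resA A σ hσ x : A) : L) = σ x := rfl

theorem coeffMap_subtype_resA (σ : L ≃ₐ[K] L) (hσ : σ ∈ A.decompositionSubgroup K)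
    (y : LaurentSeries A) :
    coeffMap A.subtype (coeffMap (resA A σ hσ) y) =
      coeffMap (σ : L →+* L) (coeffMap A.subtype y) := by
  ext n
  rfl

/-- inertia acts trivially on the residue field -/
theorem residue_resA_of_inertia {σ : L ≃ₐ[K] L} (hσ : σ ∈ A.inertiaSubgroupIn K) (x : A) :
    residue A (resA A σ
      (Fermat.Agent.S05.mem_decompositionSubgroup_of_mem_inertiaSubgroupIn hσ) x) =
      residue A x := by
  have h := Fermat.Agent.S05.apply_sub_mem_nonunits_of_mem_inertiaSubgroupIn hσ x.2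
  rw [ValuationSubring.mem_nonunits_iff_exists_mem_maximalIdeal] at h
  obtain ⟨hmem, hmax⟩ := h
  have h2 : (⟨σ x - x, hmem⟩ : A) =
      resA A σ (Fermat.Agent.S05.mem_decompositionSubgroup_of_mem_inertiaSubgroupIn hσ) x - x :=
    Subtype.ext rfl
  rw [h2] at hmax
  have h3 := (residue_eq_zero_iff _).mpr hmax
  rw [map_sub, sub_eq_zero] at h3
  exact h3

/-- a Frobenius element acts as `x ↦ x ^ q` on the residue field -/
theorem residue_resA_of_frobenius {σ : L ≃ₐ[K] L} {q : ℕ} (hσ : A.IsFrobeniusAt σ q) (x : A) :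
    residue A (resA A σ hσ.mem_decompositionSubgroup x) = residue A x ^ q := by
  have h := hσ.smul_residue_eq (residue A x)
  rw [← IsLocalRing.ResidueField.residue_smul] at h
  rw [← h]
  rfl

end ResA
section CharPRes

variable {L : Type*} [Field L] (A : ValuationSubring L)

theorem charP_residueField {ℓ : ℕ} (hℓ : ℓ.Prime) (hA : A.LiesOverPrime ℓ) :
    CharP (ResidueField A) ℓ := by
  have h0 : ((ℓ : A) : L) ∈ A.nonunits := by
    have : ((ℓ : A) : L) = (ℓ : L) := by simp
    rw [this]; exact hA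
  rw [ValuationSubring.mem_nonunits_iff_exists_mem_maximalIdeal] at h0
  obtain ⟨hmem, hmax⟩ := h0
  have h1 : residue A (ℓ : A) = 0 := (residue_eq_zero_iff _).mpr hmax
  rw [map_natCast] at h1
  have h2 := CharP.ringChar_of_prime_eq_zero hℓ h1
  have h3 : CharP (ResidueField A) (ringChar (ResidueField A)) := ringChar.charP _
  rwa [h2] at h3

end CharPRes

section Red

variable {L : Type*} [Field L] {A : ValuationSubring L}

/-- reduction commutes with a coefficient map lying over `ψ` -/
theorem red_coeffMap {τ : A →+* A} {ψ : ResidueField A →+* ResidueField A}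
    (h : ∀ x, residue A (τ x) = ψ (residue A x)) (y : LaurentSeries A) :
    coeffMap (residue A) (coeffMap τ y) = coeffMap ψ (coeffMap (residue A) y) := by
  ext n
  exact h _

variable (ℓ : ℕ) [Fact ℓ.Prime] [CharP (ResidueField A) ℓ]

theorem red_coeffMap_frob {τ : A →+* A} (h : ∀ x, residue A (τ x) = residue A x ^ ℓ)
    (y : LaurentSeries A) :
    coeffMap (residue A) (coeffMap τ y) =
      coeffMap (frobenius (ResidueField A) ℓ) (coeffMap (residue A) y) :=
  red_coeffMap (ψ := frobenius (ResidueField A) ℓ) h y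

/-- **the Eichler–Shimura congruence on integral series**: for `τ` a Frobenius lift,
`red (τ²y · y^ℓ) = red (heckeNorm ℓ (τ y))`. -/
theorem red_frob_identity {τ : A →+* A} (h : ∀ x, residue A (τ x) = residue A x ^ ℓ)
    (y : LaurentSeries A) :
    coeffMap (residue A) (coeffMap τ (coeffMap τ y) * y ^ ℓ) =
      coeffMap (residue A) (heckeNorm ℓ (coeffMap τ y)) := by
  rw [coeffMap_heckeNorm, map_mul, map_pow, red_coeffMap_frob ℓ h, red_coeffMap_frob ℓ h,
    heckeNorm_frobenius, mul_comm]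

end Red
section Abstract

variable {L : Type*} [Field L] [Algebra ℚ L] (A : ValuationSubring L) (N : ℕ)

/-- **Gauss-normalised fraction representatives** (J3-GU, in `IntRing` form): every nonzero
function is `c · a / b` with `a, b` integral of nonzero reduction and `c` a nonzero constant. -/
def GaussFracInt : Prop :=
  ∀ u : laurentBaseChange L (modularFunctionFieldFull N), u ≠ 0 →
    ∃ (c : L) (a b : LaurentSeries A) (ha : a ∈ IntRing A (residue A) N)
      (hb : b ∈ IntRing A (residue A) N),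
      c ≠ 0 ∧ coeffMap (residue A) a ≠ 0 ∧ coeffMap (residue A) b ≠ 0 ∧
        u * elL b hb =
          algebraMap L (laurentBaseChange L (modularFunctionFieldFull N)) c * elL a ha

variable {A N}

/-- **abstract Kummer lemma**: a multiplicative operator `Θ` on the function field which on
integral elements is `num / den` with `red ∘ num = red ∘ den`, which preserves constants and
`p ∣ div`, takes values in `p`-th powers on `{u | p ∣ div u}` — given (K18) and (GU). -/
theorem kummer_of_num_den [IsAlgClosed L] {p : ℕ} (hp : 0 < p)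
    (hK : K18 A (residue A) N p) (hG : GaussFracInt A N)
    (num den : LaurentSeries A → LaurentSeries A)
    (hnum : ∀ y ∈ IntRing A (residue A) N, num y ∈ IntRing A (residue A) N)
    (hden : ∀ y ∈ IntRing A (residue A) N, den y ∈ IntRing A (residue A) N)
    (hred : ∀ y, coeffMap (residue A) (num y) = coeffMap (residue A) (den y))
    (hne : ∀ y, coeffMap (residue A) y ≠ 0 → coeffMap (residue A) (den y) ≠ 0)
    (Θ : laurentBaseChange L (modularFunctionFieldFull N) →
      laurentBaseChange L (modularFunctionFieldFull N))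
    (hΘmul : ∀ x y, Θ (x * y) = Θ x * Θ y) (hΘne : ∀ x, x ≠ 0 → Θ x ≠ 0)
    (hΘ : ∀ y (hy : y ∈ IntRing A (residue A) N), coeffMap (residue A) y ≠ 0 →
      Θ (elL y hy) * elL (den y) (hden y hy) = elL (num y) (hnum y hy))
    (hΘc : ∀ c : L, c ≠ 0 → ∃ c' : L,
      Θ (algebraMap L (laurentBaseChange L (modularFunctionFieldFull N)) c) =
        algebraMap L (laurentBaseChange L (modularFunctionFieldFull N)) c')
    (hΘd : ∀ x : laurentBaseChange L (modularFunctionFieldFull N), x ≠ 0 →
      (∀ P : Place L (laurentBaseChange L (modularFunctionFieldFull N)), (p : ℤ) ∣ P.ord x) →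
      ∀ P : Place L (laurentBaseChange L (modularFunctionFieldFull N)), (p : ℤ) ∣ P.ord (Θ x))
    (u : laurentBaseChange L (modularFunctionFieldFull N)) (hu : u ≠ 0)
    (hdiv : ∀ P : Place L (laurentBaseChange L (modularFunctionFieldFull N)),
      (p : ℤ) ∣ P.ord u) :
    ∃ v : laurentBaseChange L (modularFunctionFieldFull N), v ≠ 0 ∧ Θ u = v ^ p := by
  obtain ⟨c, a, b, ha, hb, hc, hane, hbne, hub⟩ := hG u hu
  have hCc : algebraMap L (laurentBaseChange L (modularFunctionFieldFull N)) c ≠ 0 := by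
    rwa [Ne, map_eq_zero]
  -- the two integral series
  have ha₁ : num a * den b ∈ IntRing A (residue A) N := mul_mem (hnum a ha) (hden b hb)
  have hb₁ : den a * num b ∈ IntRing A (residue A) N := mul_mem (hden a ha) (hnum b hb)
  have hred₁ : coeffMap (residue A) (num a * den b) = coeffMap (residue A) (den a * num b) := by
    rw [map_mul, map_mul, hred a, hred b]
  have hne₁ : coeffMap (residue A) (num a * den b) ≠ 0 := by
    rw [map_mul, hred a]
    exact mul_ne_zero (hne a hane) (hne b hbne)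
  have hne₂ : coeffMap (residue A) (den a * num b) ≠ 0 := hred₁ ▸ hne₁
  have hb₁0 := elL_ne_zero hb₁ hne₂
  have ha₁0 := elL_ne_zero ha₁ hne₁
  -- the key identity
  have hΘub : Θ u * Θ (elL b hb) =
      Θ (algebraMap L (laurentBaseChange L (modularFunctionFieldFull N)) c) * Θ (elL a ha) := by
    rw [← hΘmul, ← hΘmul, hub]
  have hkey : elL (num a * den b) ha₁ *
      Θ (algebraMap L (laurentBaseChange L (modularFunctionFieldFull N)) c) =
      Θ u * elL (den a * num b) hb₁ := by
    rw [elL_mul (hnum a ha) (hden b hb), elL_mul (hden a ha) (hnum b hb), ← hΘ a ha hane,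
      ← hΘ b hb hbne]
    linear_combination (- elL (den a) (hden a ha) * elL (den b) (hden b hb)) * hΘub
  obtain ⟨c', hc'⟩ := hΘc c hc
  have hΘC0 := hΘne _ hCc
  have hc'0 : c' ≠ 0 := by
    intro h
    rw [hc', h, map_zero] at hΘC0
    exact hΘC0 rfl
  have hΘu0 := hΘne u hu
  -- K18
  obtain ⟨v, hv0, hv⟩ := hK (num a * den b) (den a * num b) ha₁ hb₁ hred₁ hne₁ (fun P => by
    have h1 := congrArg P.ord hkey
    rw [P.ord_mul ha₁0 hΘC0, P.ord_mul hΘu0 hb₁0, hc',
      Fermat.Agent.GJ.S18.Front.ord_algebraMap_eq_zero P hc'0, add_zero] at h1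
    rw [h1, add_sub_cancel_right]
    exact hΘd u hu hdiv P)
  obtain ⟨d, hd⟩ := IsAlgClosed.exists_pow_nat_eq c' hp
  have hd0 : d ≠ 0 := by
    intro h
    rw [h, zero_pow hp.ne'] at hd
    exact hc'0 hd.symm
  refine ⟨algebraMap L (laurentBaseChange L (modularFunctionFieldFull N)) d * v,
    mul_ne_zero (by rwa [Ne, map_eq_zero]) hv0, ?_⟩
  rw [mul_pow, ← map_pow, hd, ← hc']
  rw [hv] at hkey
  have h2 : (Θ u - Θ (algebraMap L (laurentBaseChange L (modularFunctionFieldFull N)) c) * v ^ p)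
      * elL (den a * num b) hb₁ = 0 := by
    linear_combination - hkey
  rcases mul_eq_zero.mp h2 with h3 | h3
  · exact sub_eq_zero.mp h3
  · exact absurd h3 hb₁0

end Abstract
section FrobFk

variable (k : Type*) [Field k] (ℓ : ℕ) [Fact ℓ.Prime] [CharP k ℓ] (N : ℕ)

/-- the char-`ℓ` function field is stable under the coefficientwise Frobenius -/
theorem coeffMap_frobenius_mem {x : LaurentSeries k} (hx : x ∈ modularFunctionFieldFullC k N) :
    coeffMap (frobenius k ℓ) x ∈ modularFunctionFieldFullC k N := by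
  unfold modularFunctionFieldFullC at hx
  induction hx using IntermediateField.adjoin_induction with
  | mem x hx =>
    obtain ⟨d, hne, hd, rfl⟩ := hx
    rw [coeffMap_qExpand, coeffMap_jqModC]
    exact jqModCd_mem_full k N hd
  | algebraMap c =>
    rw [coeffMap_algebraMap]
    exact (modularFunctionFieldFullC k N).algebraMap_mem _
  | add x y hx hy ihx ihy => rw [map_add]; exact add_mem ihx ihy
  | inv x hx ih => rw [map_inv₀]; exact inv_mem ih
  | mul x y hx hy ihx ihy => rw [map_mul]; exact mul_mem ihx ihy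

theorem coeffMap_frobenius_ne_zero {x : LaurentSeries k} (hx : x ≠ 0) :
    coeffMap (frobenius k ℓ) x ≠ 0 := by
  intro h
  apply hx
  ext n
  have := congrArg (fun z : LaurentSeries k => z.coeff n) h
  simp only [coeffMap_coeff, HahnSeries.coeff_zero] at this
  rw [HahnSeries.coeff_zero]
  exact (frobenius_inj k ℓ) (by rw [this, map_zero])

end FrobFk
/-- `ℚ̄` -/
abbrev Qb : Type := AlgebraicClosure ℚ

section Iface

variable (N p ℓ : ℕ)

/-- `p ∣ div u` -/
def DivDvd (u : modularFunctionFieldBar N) : Prop :=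
  ∀ P : Place Qb (modularFunctionFieldBar N), (p : ℤ) ∣ P.ord u

/-- the Galois action on the function field (coefficientwise) -/
noncomputable abbrev gal (σ : Qb ≃ₐ[ℚ] Qb) :
    modularFunctionFieldBar N ≃+* modularFunctionFieldBar N :=
  arithmeticRingAut (modularFunctionFieldFull N) σ

/-- (HN1) the Hecke norm maps the function field to itself -/
def HNMem [NeZero ℓ] : Prop :=
  ∀ u : LaurentSeries Qb, u ∈ modularFunctionFieldBar N → heckeNorm ℓ u ∈ modularFunctionFieldBar N

/-- (HN2) the Hecke norm preserves `p ∣ div` -/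
def HNDiv [NeZero ℓ] : Prop :=
  ∀ u x : modularFunctionFieldBar N, u ≠ 0 →
    (x : LaurentSeries Qb) = heckeNorm ℓ (u : LaurentSeries Qb) → DivDvd N p u → DivDvd N p x

/-- **(ES-i)** inertia at `ℓ` acts trivially on Kummer classes -/
def ESInertia : Prop :=
  ∀ A : ValuationSubring Qb, A.LiesOverPrime ℓ → ∀ σ ∈ A.inertiaSubgroupIn ℚ,
    ∀ u : modularFunctionFieldBar N, u ≠ 0 → DivDvd N p u →
      ∃ v : modularFunctionFieldBar N, v ≠ 0 ∧ gal N σ u = u * v ^ p

/-- **(ES-ii)** the Eichler–Shimura relation `σ² − T_ℓ σ + ℓ = 0` on Kummer classes -/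
def ESFrob [NeZero ℓ] : Prop :=
  ∀ A : ValuationSubring Qb, A.LiesOverPrime ℓ → ∀ σ : Qb ≃ₐ[ℚ] Qb, A.IsFrobeniusAt σ ℓ →
    ∀ u : modularFunctionFieldBar N, u ≠ 0 → DivDvd N p u →
      ∃ v : modularFunctionFieldBar N, v ≠ 0 ∧
        ((gal N σ (gal N σ u) * u ^ ℓ : modularFunctionFieldBar N) : LaurentSeries Qb) =
          heckeNorm ℓ ((gal N σ u : modularFunctionFieldBar N) : LaurentSeries Qb) *
            (v : LaurentSeries Qb) ^ p

end Iface
section Inertia

variable {N p ℓ : ℕ}

theorem coe_algebraMap_FN (c : Qb) :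
    ((algebraMap Qb (modularFunctionFieldBar N) c : modularFunctionFieldBar N) :
      LaurentSeries Qb) = HahnSeries.C c := by
  show algebraMap Qb (LaurentSeries Qb) c = HahnSeries.C c
  rw [algebraMap_laurentSeries_eq_single]; rfl

theorem gal_elL {A : ValuationSubring Qb} (σ : Qb ≃ₐ[ℚ] Qb)
    (hσ : σ ∈ A.decompositionSubgroup ℚ) (y : LaurentSeries A)
    (hy : y ∈ IntRing A (residue A) N)
    (hy' : coeffMap (resA A σ hσ) y ∈ IntRing A (residue A) N) :
    gal N σ (elL y hy) = elL (coeffMap (resA A σ hσ) y) hy' := by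
  apply Subtype.ext
  show coeffMap (σ : Qb →+* Qb) (coeffMap A.subtype y) = coeffMap A.subtype (coeffMap (resA A σ hσ) y)
  rw [coeffMap_subtype_resA]

/-- the `FL`-part of integrality is Galois stable -/
theorem coeffMap_resA_mem_FL {A : ValuationSubring Qb} (σ : Qb ≃ₐ[ℚ] Qb)
    (hσ : σ ∈ A.decompositionSubgroup ℚ) (y : LaurentSeries A)
    (hy : coeffMap A.subtype y ∈ modularFunctionFieldBar N) :
    coeffMap A.subtype (coeffMap (resA A σ hσ) y) ∈ modularFunctionFieldBar N := by
  rw [coeffMap_subtype_resA]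
  exact coeffMap_mem_laurentBaseChange σ hy

/-- **(ES-i) from (K18) + (GU)**: inertia at `A` acts trivially on `Kum_p`. -/
theorem esInertia_at (hp : 0 < p) (A : ValuationSubring Qb)
    (hK : K18 A (residue A) N p) (hG : GaussFracInt A N)
    (σ : Qb ≃ₐ[ℚ] Qb) (hσ : σ ∈ A.inertiaSubgroupIn ℚ)
    (u : modularFunctionFieldBar N) (hu : u ≠ 0) (hdiv : DivDvd N p u) :
    ∃ v : modularFunctionFieldBar N, v ≠ 0 ∧ gal N σ u = u * v ^ p := by
  have hσd := Fermat.Agent.S05.mem_decompositionSubgroup_of_mem_inertiaSubgroupIn hσ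
  have hredτ : ∀ y : LaurentSeries A,
      coeffMap (residue A) (coeffMap (resA A σ hσd) y) = coeffMap (residue A) y := by
    intro y
    ext n
    exact residue_resA_of_inertia A hσ _
  have hnum : ∀ y ∈ IntRing A (residue A) N,
      coeffMap (resA A σ hσd) y ∈ IntRing A (residue A) N := by
    intro y hy
    refine mem_intRing.mpr ⟨coeffMap_resA_mem_FL σ hσd y (mem_intRing.mp hy).1, ?_⟩
    rw [hredτ]
    exact (mem_intRing.mp hy).2
  obtain ⟨v, hv0, hv⟩ := kummer_of_num_den hp hK hG
    (fun y => coeffMap (resA A σ hσd) y) (fun y => y) hnum (fun _ hy => hy) hredτ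
    (fun _ h => h)
    (fun x => gal N σ x / x)
    (fun x y => by rw [map_mul, mul_div_mul_comm])
    (fun x hx => div_ne_zero ((map_ne_zero_iff _ (gal N σ).injective).mpr hx) hx)
    (fun y hy hne => by
      rw [div_mul_cancel₀ _ (elL_ne_zero hy hne)]
      exact gal_elL σ hσd y hy (hnum y hy))
    (fun c hc => ⟨σ c / c, by
      rw [show gal N σ (algebraMap Qb (modularFunctionFieldBar N) c) =
        algebraMap Qb (modularFunctionFieldBar N) (σ c) from
        arithmeticRingAut_algebraMap (modularFunctionFieldFull N) σ c, map_div₀]⟩)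
    (fun x hx hxd P => by
      rw [Fermat.Agent.GJ.S18.Front.ord_div P
        ((map_ne_zero_iff _ (gal N σ).injective).mpr hx) hx]
      exact dvd_sub (GalDiv.galDiv N p σ hxd P) (hxd P))
    u hu hdiv
  refine ⟨v, hv0, ?_⟩
  rw [← hv, mul_div_cancel₀ _ hu]

end Inertia

section Frobenius

theorem normL_ne_zero {K : Type*} [Field K] (ℓ : ℕ) [NeZero ℓ] {z : LaurentSeries K}
    (hz : z ≠ 0) : normL ℓ z ≠ 0 := by
  intro h
  have h1 := normL_mul ℓ z z⁻¹
  rw [mul_inv_cancel₀ hz, normL_one, h, zero_mul] at h1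
  exact one_ne_zero h1

theorem heckeNorm_ne_zero_of_field {K : Type*} [Field K] (ℓ : ℕ) [NeZero ℓ] {z : LaurentSeries K}
    (hz : z ≠ 0) : heckeNorm ℓ z ≠ 0 :=
  heckeNorm_ne_zero ℓ (normL_ne_zero ℓ hz) hz

variable {N p ℓ : ℕ} [NeZero ℓ]

/-- the Hecke norm as a self-map of the function field, given (HN1) -/
noncomputable def HNF (hM : HNMem N ℓ) (x : modularFunctionFieldBar N) :
    modularFunctionFieldBar N :=
  ⟨heckeNorm ℓ (x : LaurentSeries Qb), hM _ x.2⟩

theorem HNF_mul (hM : HNMem N ℓ) (x y : modularFunctionFieldBar N) :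
    HNF hM (x * y) = HNF hM x * HNF hM y :=
  Subtype.ext (heckeNorm_mul ℓ _ _)

theorem HNF_ne_zero (hM : HNMem N ℓ) {x : modularFunctionFieldBar N} (hx : x ≠ 0) :
    HNF hM x ≠ 0 := by
  intro h
  have h1 : heckeNorm ℓ (x : LaurentSeries Qb) = 0 := congrArg Subtype.val h
  exact heckeNorm_ne_zero_of_field ℓ (fun h0 => hx (Subtype.ext h0)) h1

theorem HNF_algebraMap (hM : HNMem N ℓ) (c : Qb) :
    HNF hM (algebraMap Qb (modularFunctionFieldBar N) c) =
      algebraMap Qb (modularFunctionFieldBar N) (c ^ (ℓ + 1)) := by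
  apply Subtype.ext
  show heckeNorm ℓ ((algebraMap Qb (modularFunctionFieldBar N) c : modularFunctionFieldBar N) :
    LaurentSeries Qb) = _
  rw [coe_algebraMap_FN, coe_algebraMap_FN, heckeNorm_C]

theorem ord_pow_nat {K F : Type*} [Field K] [Field F] [Algebra K F] (P : Place K F) (f : F)
    (n : ℕ) : P.ord (f ^ n) = n * P.ord f := by
  rw [← zpow_natCast, P.ord_zpow]

/-- **(ES-ii) from (K18) + (GU) + (HN)**: the Eichler–Shimura relation on `Kum_p` for a Frobenius
lift `σ` at `A`. -/
theorem esFrob_at [NeZero N] [hℓ : Fact ℓ.Prime] (hp : 0 < p) (A : ValuationSubring Qb)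
    (hA : A.LiesOverPrime ℓ)
    (hK : K18 A (residue A) N p) (hG : GaussFracInt A N)
    (hM : HNMem N ℓ) (hD : HNDiv N p ℓ)
    (σ : Qb ≃ₐ[ℚ] Qb) (hF : A.IsFrobeniusAt σ ℓ)
    (u : modularFunctionFieldBar N) (hu : u ≠ 0) (hdiv : DivDvd N p u) :
    ∃ v : modularFunctionFieldBar N, v ≠ 0 ∧
      ((gal N σ (gal N σ u) * u ^ ℓ : modularFunctionFieldBar N) : LaurentSeries Qb) =
        heckeNorm ℓ ((gal N σ u : modularFunctionFieldBar N) : LaurentSeries Qb) *
          (v : LaurentSeries Qb) ^ p := by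
  have : CharP (ResidueField A) ℓ := charP_residueField A hℓ.out hA
  have hσd := hF.mem_decompositionSubgroup
  have hτ := residue_resA_of_frobenius A hF
  have hgne : ∀ {x : modularFunctionFieldBar N}, x ≠ 0 → gal N σ x ≠ 0 :=
    fun hx => (map_ne_zero_iff _ (gal N σ).injective).mpr hx
  have hτmem : ∀ y ∈ IntRing A (residue A) N,
      coeffMap (resA A σ hσd) y ∈ IntRing A (residue A) N := by
    intro y hy
    refine mem_intRing.mpr ⟨coeffMap_resA_mem_FL σ hσd y (mem_intRing.mp hy).1, ?_⟩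
    rw [red_coeffMap_frob ℓ hτ]
    exact coeffMap_frobenius_mem _ ℓ N (mem_intRing.mp hy).2
  have hHNmem : ∀ z ∈ IntRing A (residue A) N, heckeNorm ℓ z ∈ IntRing A (residue A) N := by
    intro z hz
    refine mem_intRing.mpr ⟨?_, ?_⟩
    · rw [coeffMap_heckeNorm]
      exact hM _ (mem_intRing.mp hz).1
    · rw [coeffMap_heckeNorm, heckeNorm, normL_of_charP]
      exact mul_mem
        (Fermat.Agent.GJ.J3.QS.qExpand_mem_modularFunctionFieldFullC _ ℓ N (mem_intRing.mp hz).2)
        (coeffMap_frobenius_mem _ ℓ N (mem_intRing.mp hz).2)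
  have hnum : ∀ y ∈ IntRing A (residue A) N,
      coeffMap (resA A σ hσd) (coeffMap (resA A σ hσd) y) * y ^ ℓ ∈ IntRing A (residue A) N :=
    fun y hy => mul_mem (hτmem _ (hτmem y hy)) (pow_mem hy ℓ)
  have hden : ∀ y ∈ IntRing A (residue A) N,
      heckeNorm ℓ (coeffMap (resA A σ hσd) y) ∈ IntRing A (residue A) N :=
    fun y hy => hHNmem _ (hτmem y hy)
  have hdenL : ∀ y (hy : y ∈ IntRing A (residue A) N),
      elL (heckeNorm ℓ (coeffMap (resA A σ hσd) y)) (hden y hy) = HNF hM (gal N σ (elL y hy)) := by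
    intro y hy
    apply Subtype.ext
    show coeffMap A.subtype (heckeNorm ℓ (coeffMap (resA A σ hσd) y)) =
      heckeNorm ℓ (coeffMap (σ : Qb →+* Qb) (coeffMap A.subtype y))
    rw [coeffMap_heckeNorm, coeffMap_subtype_resA]
  obtain ⟨v, hv0, hv⟩ := kummer_of_num_den hp hK hG
    (fun y => coeffMap (resA A σ hσd) (coeffMap (resA A σ hσd) y) * y ^ ℓ)
    (fun y => heckeNorm ℓ (coeffMap (resA A σ hσd) y)) hnum hden
    (red_frob_identity ℓ hτ)
    (fun y hne => by
      rw [← red_frob_identity ℓ hτ, map_mul, map_pow, red_coeffMap_frob ℓ hτ,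
        red_coeffMap_frob ℓ hτ]
      exact mul_ne_zero
        (coeffMap_frobenius_ne_zero _ ℓ (coeffMap_frobenius_ne_zero _ ℓ hne))
        (pow_ne_zero _ hne))
    (fun x => gal N σ (gal N σ x) * x ^ ℓ / HNF hM (gal N σ x))
    (fun x y => by
      rw [map_mul, map_mul, mul_pow, HNF_mul, div_mul_div_comm]
      congr 1; ring)
    (fun x hx => div_ne_zero (mul_ne_zero (hgne (hgne hx)) (pow_ne_zero _ hx))
      (HNF_ne_zero hM (hgne hx)))
    (fun y hy hne => by
      rw [hdenL y hy, div_mul_cancel₀ _ (HNF_ne_zero hM (hgne (elL_ne_zero hy hne)))]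
      apply Subtype.ext
      show coeffMap (σ : Qb →+* Qb) (coeffMap (σ : Qb →+* Qb) (coeffMap A.subtype y)) *
          (coeffMap A.subtype y) ^ ℓ =
        coeffMap A.subtype (coeffMap (resA A σ hσd) (coeffMap (resA A σ hσd) y) * y ^ ℓ)
      rw [map_mul, map_pow, coeffMap_subtype_resA, coeffMap_subtype_resA])
    (fun c hc => ⟨σ (σ c) * c ^ ℓ / (σ c) ^ (ℓ + 1), by
      have hg : ∀ d : Qb, gal N σ (algebraMap Qb (modularFunctionFieldBar N) d) =
          algebraMap Qb (modularFunctionFieldBar N) (σ d) :=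
        fun d => arithmeticRingAut_algebraMap (modularFunctionFieldFull N) σ d
      rw [hg, hg, HNF_algebraMap, map_div₀, map_mul, map_pow, map_pow]⟩)
    (fun x hx hxd P => by
      rw [Fermat.Agent.GJ.S18.Front.ord_div P (mul_ne_zero (hgne (hgne hx)) (pow_ne_zero _ hx))
        (HNF_ne_zero hM (hgne hx)), P.ord_mul (hgne (hgne hx)) (pow_ne_zero _ hx), ord_pow_nat]
      exact dvd_sub
        (dvd_add (GalDiv.galDiv N p σ (GalDiv.galDiv N p σ hxd) P)
          (dvd_mul_of_dvd_right (hxd P) _))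
        (hD (gal N σ x) (HNF hM (gal N σ x)) (hgne hx) rfl (GalDiv.galDiv N p σ hxd) P))
    u hu hdiv
  refine ⟨v, hv0, ?_⟩
  have h1 : gal N σ (gal N σ u) * u ^ ℓ = HNF hM (gal N σ u) * v ^ p := by
    rw [← hv, mul_div_cancel₀ _ (HNF_ne_zero hM (hgne hu))]
  rw [h1]
  rfl

end Frobenius

section Package

variable {N p ℓ : ℕ}

/-- (RedMem) [J1-VAL]: the coefficientwise reduction of an `A`-integral element of the function
field lies in the char-`ℓ` function field. -/
def RedMem (N : ℕ) (A : ValuationSubring Qb) : Prop :=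
  ∀ y : LaurentSeries A, coeffMap A.subtype y ∈ modularFunctionFieldBar N →
    coeffMap (residue A) y ∈ modularFunctionFieldFullC (ResidueField A) N

/-- (GU) in the series form of `GJ/GU/GaussFrac.lean` (helper42): every nonzero function is
`c · a / b` with `a, b` `A`-integral series of nonzero reduction. -/
def GaussFracSeries (N : ℕ) (A : ValuationSubring Qb) : Prop :=
  ∀ u : LaurentSeries Qb, u ∈ modularFunctionFieldBar N → u ≠ 0 →
    ∃ (c : Qb) (a b : LaurentSeries A), c ≠ 0 ∧
      coeffMap A.subtype a ∈ modularFunctionFieldBar N ∧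
      coeffMap A.subtype b ∈ modularFunctionFieldBar N ∧
      coeffMap (residue A) a ≠ 0 ∧ coeffMap (residue A) b ≠ 0 ∧
      u * coeffMap A.subtype b = HahnSeries.C c * coeffMap A.subtype a

theorem gaussFracInt_of_redMem {A : ValuationSubring Qb} (hG : GaussFracSeries N A)
    (hR : RedMem N A) : GaussFracInt A N := by
  intro u hu
  obtain ⟨c, a, b, hc, ha, hb, hane, hbne, h⟩ :=
    hG (u : LaurentSeries Qb) u.2 (fun h0 => hu (Subtype.ext h0))
  refine ⟨c, a, b, mem_intRing.mpr ⟨ha, hR a ha⟩, mem_intRing.mpr ⟨hb, hR b hb⟩, hc, hane, hbne,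
    ?_⟩
  apply Subtype.ext
  show (u : LaurentSeries Qb) * coeffMap A.subtype b =
    ((algebraMap Qb (modularFunctionFieldBar N) c : modularFunctionFieldBar N) :
      LaurentSeries Qb) * coeffMap A.subtype a
  rw [coe_algebraMap_FN, h]

/-- **(ES-i)** from (K18) + (GU). -/
theorem esInertia_of (hp : 0 < p)
    (hK : ∀ A : ValuationSubring Qb, A.LiesOverPrime ℓ → K18 A (residue A) N p)
    (hG : ∀ A : ValuationSubring Qb, A.LiesOverPrime ℓ → GaussFracInt A N) :
    ESInertia N p ℓ :=
  fun A hA σ hσ u hu hdiv => esInertia_at hp A (hK A hA) (hG A hA) σ hσ u hu hdiv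

/-- **(ES-ii)** from (K18) + (GU) + (HN). -/
theorem esFrob_of [NeZero N] [Fact ℓ.Prime] (hp : 0 < p)
    (hK : ∀ A : ValuationSubring Qb, A.LiesOverPrime ℓ → K18 A (residue A) N p)
    (hG : ∀ A : ValuationSubring Qb, A.LiesOverPrime ℓ → GaussFracInt A N)
    (hM : HNMem N ℓ) (hD : HNDiv N p ℓ) :
    ESFrob N p ℓ :=
  fun A hA σ hF u hu hdiv => esFrob_at hp A hA (hK A hA) (hG A hA) hM hD σ hF u hu hdiv

/-- the Hecke norm commutes with the Galois action -/
theorem gal_HNF [NeZero ℓ] (hM : HNMem N ℓ) (σ : Qb ≃ₐ[ℚ] Qb) (x : modularFunctionFieldBar N) :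
    gal N σ (HNF hM x) = HNF hM (gal N σ x) :=
  Subtype.ext (coeffMap_heckeNorm ℓ (σ : Qb →+* Qb) (x : LaurentSeries Qb))

theorem HNF_one [NeZero ℓ] (hM : HNMem N ℓ) : HNF hM (1 : modularFunctionFieldBar N) = 1 :=
  Subtype.ext (heckeNorm_one ℓ)

theorem HNF_pow [NeZero ℓ] (hM : HNMem N ℓ) (x : modularFunctionFieldBar N) (n : ℕ) :
    HNF hM (x ^ n) = HNF hM x ^ n := by
  induction n with
  | zero => rw [pow_zero, pow_zero, HNF_one]
  | succ n ih => rw [pow_succ, pow_succ, HNF_mul, ih]

theorem HNF_divDvd [NeZero ℓ] (hM : HNMem N ℓ) (hD : HNDiv N p ℓ)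
    {x : modularFunctionFieldBar N} (hx : x ≠ 0) (h : DivDvd N p x) : DivDvd N p (HNF hM x) :=
  hD x (HNF hM x) hx rfl h

end Package

end Fermat.Agent.GJ.Kum
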