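/-
GATE-J / J3-KUM (helper44): IFACE:ES from the CLAUSE-FREE Kummer statement `K18s` (helper45,
`GJ/S18/K18Strong.lean`).  With `K18s` no membership of reductions in `k(j̃_d)` is needed, so the
inputs are only

* `K18s A (residue A) N p`   (J1),
* `GaussFracSeries N A`      (J3-GU; a THEOREM: `Fermat.Agent.GJ.GU.gaussFrac`, helper42),
* `HNMem N ℓ`, `HNDiv N p ℓ` (J3-HN).

Exports `esInertia_of_k18s`, `esFrob_of_k18s` (same conclusions `ESInertia`, `ESFrob` as
`ESKummer.lean`).
-/
import Fermat.Agent.GJ.Kum.ESKummer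
import Fermat.Agent.GJ.S18.K18Strong

set_option autoImplicit false

namespace Fermat.Agent.GJ.Kum

open HahnSeries ModularCurve AlgebraicCurve IsLocalRing
open Fermat.Agent.GJ.S18.Front (K18s coeffMap_subtype_injective)

section AbstractS

variable {L : Type*} [Field L] [Algebra ℚ L] {A : ValuationSubring L} {N : ℕ}

/-- an `A`-integral series lying in the function field over `L`, as an element of that field -/
noncomputable def elS (y : LaurentSeries A)
    (hy : coeffMap A.subtype y ∈ laurentBaseChange L (modularFunctionFieldFull N)) :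
    laurentBaseChange L (modularFunctionFieldFull N) :=
  ⟨coeffMap A.subtype y, hy⟩

theorem elS_mul {y y' : LaurentSeries A}
    (hy : coeffMap A.subtype y ∈ laurentBaseChange L (modularFunctionFieldFull N))
    (hy' : coeffMap A.subtype y' ∈ laurentBaseChange L (modularFunctionFieldFull N))
    (h : coeffMap A.subtype (y * y') ∈ laurentBaseChange L (modularFunctionFieldFull N)) :
    elS (y * y') h = elS y hy * elS y' hy' :=
  Subtype.ext (map_mul _ _ _)

theorem elS_ne_zero {y : LaurentSeries A}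
    (hy : coeffMap A.subtype y ∈ laurentBaseChange L (modularFunctionFieldFull N))
    (hne : coeffMap (residue A) y ≠ 0) : elS y hy ≠ 0 := by
  intro h
  have h0 : coeffMap A.subtype y = 0 := congrArg Subtype.val h
  have hy0 : y = 0 := coeffMap_subtype_injective (by rw [h0, map_zero])
  exact hne (by rw [hy0, map_zero])

/-- (GU) in element form, for the clause-free integrality predicate -/
def GaussFracS (A : ValuationSubring L) (N : ℕ) : Prop :=
  ∀ u : laurentBaseChange L (modularFunctionFieldFull N), u ≠ 0 →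
    ∃ (c : L) (a b : LaurentSeries A)
      (ha : coeffMap A.subtype a ∈ laurentBaseChange L (modularFunctionFieldFull N))
      (hb : coeffMap A.subtype b ∈ laurentBaseChange L (modularFunctionFieldFull N)),
      c ≠ 0 ∧ coeffMap (residue A) a ≠ 0 ∧ coeffMap (residue A) b ≠ 0 ∧
        u * elS b hb =
          algebraMap L (laurentBaseChange L (modularFunctionFieldFull N)) c * elS a ha

/-- **abstract Kummer lemma, clause-free form** (same proof as `kummer_of_num_den`). -/
theorem kummer_of_num_den_s [IsAlgClosed L] {p : ℕ} (hp : 0 < p)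
    (hK : K18s A (residue A) N p) (hG : GaussFracS A N)
    (num den : LaurentSeries A → LaurentSeries A)
    (hnum : ∀ y, coeffMap A.subtype y ∈ laurentBaseChange L (modularFunctionFieldFull N) →
      coeffMap A.subtype (num y) ∈ laurentBaseChange L (modularFunctionFieldFull N))
    (hden : ∀ y, coeffMap A.subtype y ∈ laurentBaseChange L (modularFunctionFieldFull N) →
      coeffMap A.subtype (den y) ∈ laurentBaseChange L (modularFunctionFieldFull N))
    (hred : ∀ y, coeffMap (residue A) (num y) = coeffMap (residue A) (den y))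
    (hne : ∀ y, coeffMap (residue A) y ≠ 0 → coeffMap (residue A) (den y) ≠ 0)
    (Θ : laurentBaseChange L (modularFunctionFieldFull N) →
      laurentBaseChange L (modularFunctionFieldFull N))
    (hΘmul : ∀ x y, Θ (x * y) = Θ x * Θ y) (hΘne : ∀ x, x ≠ 0 → Θ x ≠ 0)
    (hΘ : ∀ y (hy : coeffMap A.subtype y ∈ laurentBaseChange L (modularFunctionFieldFull N)),
      coeffMap (residue A) y ≠ 0 →
      Θ (elS y hy) * elS (den y) (hden y hy) = elS (num y) (hnum y hy))
    (hΘc : ∀ c : L, c ≠ 0 → ∃ c' : L,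
      Θ (algebraMap L (laurentBaseChange L (modularFunctionFieldFull N)) c) =
        algebraMap L (laurentBaseChange L (modularFunctionFieldFull N)) c')
    (hΘd : ∀ x : laurentBaseChange L (modularFunctionFieldFull N), x ≠ 0 →
      (∀ P : Place L (laurentBaseChange L (modularFunctionFieldFull N)), (p : ℤ) ∣ P.ord x) →
      ∀ P : Place L (laurentBaseChange L (modularFunctionFieldFull N)), (p : ℤ) ∣ P.ord (Θ x))
    (u : laurentBaseChange L (modularFunctionFieldFull N)) (hu : u ≠ 0)
    (hdiv : ∀ P : Place L (laurentBaseChange L (modularFunctionFieldFull N)),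
      (p : ℤ) ∣ P.ord u) :
    ∃ v : laurentBaseChange L (modularFunctionFieldFull N), v ≠ 0 ∧ Θ u = v ^ p := by
  obtain ⟨c, a, b, ha, hb, hc, hane, hbne, hub⟩ := hG u hu
  have hCc : algebraMap L (laurentBaseChange L (modularFunctionFieldFull N)) c ≠ 0 := by
    rwa [Ne, map_eq_zero]
  have ha₁ : coeffMap A.subtype (num a * den b) ∈
      laurentBaseChange L (modularFunctionFieldFull N) := by
    rw [map_mul]; exact mul_mem (hnum a ha) (hden b hb)
  have hb₁ : coeffMap A.subtype (den a * num b) ∈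
      laurentBaseChange L (modularFunctionFieldFull N) := by
    rw [map_mul]; exact mul_mem (hden a ha) (hnum b hb)
  have hred₁ : coeffMap (residue A) (num a * den b) = coeffMap (residue A) (den a * num b) := by
    rw [map_mul, map_mul, hred a, hred b]
  have hne₁ : coeffMap (residue A) (num a * den b) ≠ 0 := by
    rw [map_mul, hred a]
    exact mul_ne_zero (hne a hane) (hne b hbne)
  have hne₂ : coeffMap (residue A) (den a * num b) ≠ 0 := hred₁ ▸ hne₁
  have hb₁0 := elS_ne_zero hb₁ hne₂
  have ha₁0 := elS_ne_zero ha₁ hne₁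
  have hΘub : Θ u * Θ (elS b hb) =
      Θ (algebraMap L (laurentBaseChange L (modularFunctionFieldFull N)) c) * Θ (elS a ha) := by
    rw [← hΘmul, ← hΘmul, hub]
  have hkey : elS (num a * den b) ha₁ *
      Θ (algebraMap L (laurentBaseChange L (modularFunctionFieldFull N)) c) =
      Θ u * elS (den a * num b) hb₁ := by
    rw [elS_mul (hnum a ha) (hden b hb), elS_mul (hden a ha) (hnum b hb), ← hΘ a ha hane,
      ← hΘ b hb hbne]
    linear_combination (- elS (den a) (hden a ha) * elS (den b) (hden b hb)) * hΘub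
  obtain ⟨c', hc'⟩ := hΘc c hc
  have hΘC0 := hΘne _ hCc
  have hc'0 : c' ≠ 0 := by
    intro h
    rw [hc', h, map_zero] at hΘC0
    exact hΘC0 rfl
  have hΘu0 := hΘne u hu
  obtain ⟨v, hv0, hv⟩ := hK (num a * den b) (den a * num b) ha₁ hb₁ hred₁ hne₁ (fun P => by
    have h1 := congrArg P.ord hkey
    rw [P.ord_mul ha₁0 hΘC0, P.ord_mul hΘu0 hb₁0, hc',
      Fermat.Agent.GJ.S18.Front.ord_algebraMap_eq_zero P hc'0, add_zero] at h1
    show (p : ℤ) ∣ P.ord (elS (num a * den b) ha₁) - P.ord (elS (den a * num b) hb₁)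
    rw [h1, add_sub_cancel_right]
    exact hΘd u hu hdiv P)
  have hv' : elS (num a * den b) ha₁ = elS (den a * num b) hb₁ * v ^ p := hv
  obtain ⟨d, hd⟩ := IsAlgClosed.exists_pow_nat_eq c' hp
  have hd0 : d ≠ 0 := by
    intro h
    rw [h, zero_pow hp.ne'] at hd
    exact hc'0 hd.symm
  refine ⟨algebraMap L (laurentBaseChange L (modularFunctionFieldFull N)) d * v,
    mul_ne_zero (by rwa [Ne, map_eq_zero]) hv0, ?_⟩
  rw [mul_pow, ← map_pow, hd, ← hc']
  rw [hv'] at hkey
  have h2 : (Θ u - Θ (algebraMap L (laurentBaseChange L (modularFunctionFieldFull N)) c) * v ^ p)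
      * elS (den a * num b) hb₁ = 0 := by
    linear_combination - hkey
  rcases mul_eq_zero.mp h2 with h3 | h3
  · exact sub_eq_zero.mp h3
  · exact absurd h3 hb₁0

end AbstractS

section MainS

variable {N p ℓ : ℕ}

theorem gaussFracS_of_series {A : ValuationSubring Qb} (hG : GaussFracSeries N A) :
    GaussFracS A N := by
  intro u hu
  obtain ⟨c, a, b, hc, ha, hb, hane, hbne, h⟩ :=
    hG (u : LaurentSeries Qb) u.2 (fun h0 => hu (Subtype.ext h0))
  refine ⟨c, a, b, ha, hb, hc, hane, hbne, ?_⟩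
  apply Subtype.ext
  show (u : LaurentSeries Qb) * coeffMap A.subtype b =
    ((algebraMap Qb (modularFunctionFieldBar N) c : modularFunctionFieldBar N) :
      LaurentSeries Qb) * coeffMap A.subtype a
  rw [coe_algebraMap_FN, h]

theorem gal_elS {A : ValuationSubring Qb} (σ : Qb ≃ₐ[ℚ] Qb)
    (hσ : σ ∈ A.decompositionSubgroup ℚ) (y : LaurentSeries A)
    (hy : coeffMap A.subtype y ∈ modularFunctionFieldBar N)
    (hy' : coeffMap A.subtype (coeffMap (resA A σ hσ) y) ∈ modularFunctionFieldBar N) :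
    gal N σ (elS y hy) = elS (coeffMap (resA A σ hσ) y) hy' := by
  apply Subtype.ext
  show coeffMap (σ : Qb →+* Qb) (coeffMap A.subtype y) =
    coeffMap A.subtype (coeffMap (resA A σ hσ) y)
  rw [coeffMap_subtype_resA]

/-- **(ES-i) from (K18s) + (GU)** at one valuation subring. -/
theorem esInertia_at_s (hp : 0 < p) (A : ValuationSubring Qb)
    (hK : K18s A (residue A) N p) (hG : GaussFracSeries N A)
    (σ : Qb ≃ₐ[ℚ] Qb) (hσ : σ ∈ A.inertiaSubgroupIn ℚ)
    (u : modularFunctionFieldBar N) (hu : u ≠ 0) (hdiv : DivDvd N p u) :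
    ∃ v : modularFunctionFieldBar N, v ≠ 0 ∧ gal N σ u = u * v ^ p := by
  have hσd := Fermat.Agent.S05.mem_decompositionSubgroup_of_mem_inertiaSubgroupIn hσ
  have hredτ : ∀ y : LaurentSeries A,
      coeffMap (residue A) (coeffMap (resA A σ hσd) y) = coeffMap (residue A) y := by
    intro y
    ext n
    exact residue_resA_of_inertia A hσ _
  obtain ⟨v, hv0, hv⟩ := kummer_of_num_den_s hp hK (gaussFracS_of_series hG)
    (fun y => coeffMap (resA A σ hσd) y) (fun y => y)
    (fun y hy => coeffMap_resA_mem_FL σ hσd y hy) (fun _ hy => hy) hredτ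
    (fun _ h => h)
    (fun x => gal N σ x / x)
    (fun x y => by rw [map_mul, mul_div_mul_comm])
    (fun x hx => div_ne_zero ((map_ne_zero_iff _ (gal N σ).injective).mpr hx) hx)
    (fun y hy hne => by
      rw [div_mul_cancel₀ _ (elS_ne_zero hy hne)]
      exact gal_elS σ hσd y hy (coeffMap_resA_mem_FL σ hσd y hy))
    (fun c hc => ⟨σ c / c, by
      rw [show gal N σ (algebraMap Qb (modularFunctionFieldBar N) c) =
        algebraMap Qb (modularFunctionFieldBar N) (σ c) from
        arithmeticRingAut_algebraMap (modularFunctionFieldFull N) σ c, map_div₀]⟩)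
    (fun x hx hxd P => by
      rw [Fermat.Agent.GJ.S18.Front.ord_div P
        ((map_ne_zero_iff _ (gal N σ).injective).mpr hx) hx]
      exact dvd_sub (GalDiv.galDiv N p σ hxd P) (hxd P))
    u hu hdiv
  refine ⟨v, hv0, ?_⟩
  rw [← hv, mul_div_cancel₀ _ hu]

/-- **(ES-ii) from (K18s) + (GU) + (HN)** at one valuation subring. -/
theorem esFrob_at_s [hℓ : Fact ℓ.Prime] (hp : 0 < p) (A : ValuationSubring Qb)
    (hA : A.LiesOverPrime ℓ)
    (hK : K18s A (residue A) N p) (hG : GaussFracSeries N A)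
    (hM : HNMem N ℓ) (hD : HNDiv N p ℓ)
    (σ : Qb ≃ₐ[ℚ] Qb) (hF : A.IsFrobeniusAt σ ℓ)
    (u : modularFunctionFieldBar N) (hu : u ≠ 0) (hdiv : DivDvd N p u) :
    ∃ v : modularFunctionFieldBar N, v ≠ 0 ∧
      ((gal N σ (gal N σ u) * u ^ ℓ : modularFunctionFieldBar N) : LaurentSeries Qb) =
        heckeNorm ℓ ((gal N σ u : modularFunctionFieldBar N) : LaurentSeries Qb) *
          (v : LaurentSeries Qb) ^ p := by
  have : CharP (ResidueField A) ℓ := charP_residueField A hℓ.out hA
  have hσd := hF.mem_decompositionSubgroup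
  have hτ := residue_resA_of_frobenius A hF
  have hgne : ∀ {x : modularFunctionFieldBar N}, x ≠ 0 → gal N σ x ≠ 0 :=
    fun hx => (map_ne_zero_iff _ (gal N σ).injective).mpr hx
  have hτmem : ∀ y, coeffMap A.subtype y ∈ modularFunctionFieldBar N →
      coeffMap A.subtype (coeffMap (resA A σ hσd) y) ∈ modularFunctionFieldBar N :=
    fun y hy => coeffMap_resA_mem_FL σ hσd y hy
  have hnum : ∀ y, coeffMap A.subtype y ∈ modularFunctionFieldBar N →
      coeffMap A.subtype (coeffMap (resA A σ hσd) (coeffMap (resA A σ hσd) y) * y ^ ℓ) ∈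
        modularFunctionFieldBar N := by
    intro y hy
    rw [map_mul, map_pow]
    exact mul_mem (hτmem _ (hτmem y hy)) (pow_mem hy ℓ)
  have hden : ∀ y, coeffMap A.subtype y ∈ modularFunctionFieldBar N →
      coeffMap A.subtype (heckeNorm ℓ (coeffMap (resA A σ hσd) y)) ∈
        modularFunctionFieldBar N := by
    intro y hy
    rw [coeffMap_heckeNorm]
    exact hM _ (hτmem y hy)
  have hdenL : ∀ y (hy : coeffMap A.subtype y ∈ modularFunctionFieldBar N),
      elS (heckeNorm ℓ (coeffMap (resA A σ hσd) y)) (hden y hy) =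
        HNF hM (gal N σ (elS y hy)) := by
    intro y hy
    apply Subtype.ext
    show coeffMap A.subtype (heckeNorm ℓ (coeffMap (resA A σ hσd) y)) =
      heckeNorm ℓ (coeffMap (σ : Qb →+* Qb) (coeffMap A.subtype y))
    rw [coeffMap_heckeNorm, coeffMap_subtype_resA]
  obtain ⟨v, hv0, hv⟩ := kummer_of_num_den_s hp hK (gaussFracS_of_series hG)
    (fun y => coeffMap (resA A σ hσd) (coeffMap (resA A σ hσd) y) * y ^ ℓ)
    (fun y => heckeNorm ℓ (coeffMap (resA A σ hσd) y)) hnum hden
    (red_frob_identity ℓ hτ)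
    (fun y hne => by
      rw [← red_frob_identity ℓ hτ, map_mul, map_pow, red_coeffMap_frob ℓ hτ,
        red_coeffMap_frob ℓ hτ]
      exact mul_ne_zero
        (coeffMap_frobenius_ne_zero _ ℓ (coeffMap_frobenius_ne_zero _ ℓ hne))
        (pow_ne_zero _ hne))
    (fun x => gal N σ (gal N σ x) * x ^ ℓ / HNF hM (gal N σ x))
    (fun x y => by
      rw [map_mul, map_mul, mul_pow, HNF_mul, div_mul_div_comm]
      congr 1; ring)
    (fun x hx => div_ne_zero (mul_ne_zero (hgne (hgne hx)) (pow_ne_zero _ hx))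
      (HNF_ne_zero hM (hgne hx)))
    (fun y hy hne => by
      rw [hdenL y hy, div_mul_cancel₀ _ (HNF_ne_zero hM (hgne (elS_ne_zero hy hne)))]
      apply Subtype.ext
      show coeffMap (σ : Qb →+* Qb) (coeffMap (σ : Qb →+* Qb) (coeffMap A.subtype y)) *
          (coeffMap A.subtype y) ^ ℓ =
        coeffMap A.subtype (coeffMap (resA A σ hσd) (coeffMap (resA A σ hσd) y) * y ^ ℓ)
      rw [map_mul, map_pow, coeffMap_subtype_resA, coeffMap_subtype_resA])
    (fun c hc => ⟨σ (σ c) * c ^ ℓ / (σ c) ^ (ℓ + 1), by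
      have hg : ∀ d : Qb, gal N σ (algebraMap Qb (modularFunctionFieldBar N) d) =
          algebraMap Qb (modularFunctionFieldBar N) (σ d) :=
        fun d => arithmeticRingAut_algebraMap (modularFunctionFieldFull N) σ d
      rw [hg, hg, HNF_algebraMap, map_div₀, map_mul, map_pow, map_pow]⟩)
    (fun x hx hxd P => by
      rw [Fermat.Agent.GJ.S18.Front.ord_div P (mul_ne_zero (hgne (hgne hx)) (pow_ne_zero _ hx))
        (HNF_ne_zero hM (hgne hx)), P.ord_mul (hgne (hgne hx)) (pow_ne_zero _ hx), ord_pow_nat]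
      exact dvd_sub
        (dvd_add (GalDiv.galDiv N p σ (GalDiv.galDiv N p σ hxd) P)
          (dvd_mul_of_dvd_right (hxd P) _))
        (hD (gal N σ x) (HNF hM (gal N σ x)) (hgne hx) rfl (GalDiv.galDiv N p σ hxd) P))
    u hu hdiv
  refine ⟨v, hv0, ?_⟩
  have h1 : gal N σ (gal N σ u) * u ^ ℓ = HNF hM (gal N σ u) * v ^ p := by
    rw [← hv, mul_div_cancel₀ _ (HNF_ne_zero hM (hgne hu))]
  rw [h1]
  rfl

/-- **(ES-i)** from (K18s) + (GU). -/
theorem esInertia_of_k18s (hp : 0 < p)
    (hK : ∀ A : ValuationSubring Qb, A.LiesOverPrime ℓ → K18s A (residue A) N p)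
    (hG : ∀ A : ValuationSubring Qb, A.LiesOverPrime ℓ → GaussFracSeries N A) :
    ESInertia N p ℓ :=
  fun A hA σ hσ u hu hdiv => esInertia_at_s hp A (hK A hA) (hG A hA) σ hσ u hu hdiv

/-- **(ES-ii)** from (K18s) + (GU) + (HN). -/
theorem esFrob_of_k18s [Fact ℓ.Prime] (hp : 0 < p)
    (hK : ∀ A : ValuationSubring Qb, A.LiesOverPrime ℓ → K18s A (residue A) N p)
    (hG : ∀ A : ValuationSubring Qb, A.LiesOverPrime ℓ → GaussFracSeries N A)
    (hM : HNMem N ℓ) (hD : HNDiv N p ℓ) :
    ESFrob N p ℓ :=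
  fun A hA σ hF u hu hdiv => esFrob_at_s hp A hA (hK A hA) (hG A hA) hM hD σ hF u hu hdiv

end MainS

end Fermat.Agent.GJ.Kum
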