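/-
GATE-J / J3 (helper44): FINAL FORM of IFACE:ES.  (GU) is discharged by helper42's theorem
`Fermat.Agent.GJ.GU.gaussFrac`; the remaining inputs are J1's Kummer statement (either the
clause-free `K18s`, or `K18` + the q-expansion principle `RedMem`) and J3-HN (`HNMem`, `HNDiv`).

* `es_of_k18s` : `K18s` + `HNMem` + `HNDiv`            ⟹ `ESInertia ∧ ESFrob`
* `es_of_k18`  : `K18` + `RedMem` + `HNMem` + `HNDiv`  ⟹ `ESInertia ∧ ESFrob`
* `heckeNormSeries_eq` : helper99's `KumGroup.heckeNormSeries` IS `heckeNorm` (`rfl`).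
-/
import Fermat.Agent.GJ.Kum.ESKummerS
import Fermat.Agent.GJ.GU.GaussFrac
import Fermat.Agent.GJ.J2.EigIface

set_option autoImplicit false

namespace Fermat.Agent.GJ.Kum

open HahnSeries ModularCurve AlgebraicCurve IsLocalRing
open Fermat.Agent.GJ.S18.Front (K18 K18s)

/-- helper99's `heckeNormSeries` (IFACE:EIG) is definitionally `heckeNorm` -/
theorem heckeNormSeries_eq {R : Type*} [CommRing R] (ℓ : ℕ) [NeZero ℓ] (u : LaurentSeries R) :
    Fermat.Agent.GJ.KumGroup.heckeNormSeries ℓ u = heckeNorm ℓ u := rfl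

/-- (GU) is a theorem (helper42) -/
theorem gaussFracSeries (N : ℕ) [NeZero N] (A : ValuationSubring Qb) : GaussFracSeries N A :=
  Fermat.Agent.GJ.GU.gaussFrac N A

variable {N p ℓ : ℕ} [NeZero N] [Fact ℓ.Prime]

/-- **IFACE:ES from the clause-free (K18s) + (HN)**. -/
theorem es_of_k18s (hp : 0 < p)
    (hK : ∀ A : ValuationSubring Qb, A.LiesOverPrime ℓ → K18s A (residue A) N p)
    (hM : HNMem N ℓ) (hD : HNDiv N p ℓ) :
    ESInertia N p ℓ ∧ ESFrob N p ℓ :=
  ⟨esInertia_of_k18s hp hK (fun A _ => gaussFracSeries N A),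
    esFrob_of_k18s hp hK (fun A _ => gaussFracSeries N A) hM hD⟩

/-- **IFACE:ES from (K18) + (RES = `RedMem`) + (HN)**. -/
theorem es_of_k18 (hp : 0 < p)
    (hK : ∀ A : ValuationSubring Qb, A.LiesOverPrime ℓ → K18 A (residue A) N p)
    (hR : ∀ A : ValuationSubring Qb, A.LiesOverPrime ℓ → RedMem N A)
    (hM : HNMem N ℓ) (hD : HNDiv N p ℓ) :
    ESInertia N p ℓ ∧ ESFrob N p ℓ :=
  ⟨esInertia_of hp hK (fun A hA => gaussFracInt_of_redMem (gaussFracSeries N A) (hR A hA)),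
    esFrob_of hp hK (fun A hA => gaussFracInt_of_redMem (gaussFracSeries N A) (hR A hA)) hM hD⟩

end Fermat.Agent.GJ.Kum
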