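/-
GATE-J / J4-KUMTYPE, converter (helper42): the Kummer model `kumModel` of `KumType.lean` fed with
helper44's LANDED interface props of `Kum/ESKummer.lean` (`HNMem`, `HNDiv`, `ESInertia`, `ESFrob`)
and, one step further, with J1's clause-free Kummer statement `K18s` through `es_of_k18s`.

* `hnMemHyp_of`, `hnDivHyp_of`, `esInertiaHyp_of`, `esFrobHyp_of` : the four converters (`rfl` level);
* `kumModelES`   : `KumModel N p` from (HN) + (ES) in helper44's form;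
* `kumModelK18s` : `KumModel N p` from (K18s) at all `A` over primes `ℓ ∤ Np` + (HN) at all primes
  `ℓ ∤ N`;
* the `rfl` lemmas `kumModelES_eq`, `kumModelK18s_eq` reduce both to `kumModel`, so the whole API of
  `KumType.lean` (`cls`, `kumModel_gal_cls`, `kumModel_T_cls_of_eq`, …) applies verbatim.
-/
import Fermat.Agent.GJ.Kum.KumType
import Fermat.Agent.GJ.Kum.ESFinal

set_option autoImplicit false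

noncomputable section

namespace Fermat.Agent.GJ.Kum.KumType

open AlgebraicCurve ModularCurve IsLocalRing Fermat.Agent.GJ.KumGroup
open Fermat.Agent.GJ.S18.Front (K18s)

/-! ### The four converters -/

theorem hnMemHyp_of {N ℓ : ℕ} (h : ∀ [NeZero ℓ], HNMem N ℓ) : HNMemHyp N ℓ := by
  intro _ u hu
  exact h u hu

theorem hnDivHyp_of {N p ℓ : ℕ} (h : ∀ [NeZero ℓ], HNDiv N p ℓ) : HNDivHyp N p ℓ := by
  intro _ u x hu hx hdiv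
  exact h u x hu hx hdiv

theorem esInertiaHyp_of {N p ℓ : ℕ} (h : ESInertia N p ℓ) : ESInertiaHyp N p ℓ := by
  intro A hA s hs u hu hdiv
  exact h A hA s hs u hu hdiv

theorem esFrobHyp_of {N p ℓ : ℕ} (h : ∀ [NeZero ℓ], ESFrob N p ℓ) : ESFrobHyp N p ℓ := by
  intro _ A hA s hs u hu hdiv
  exact h A hA s hs u hu hdiv

/-! ### The model from helper44's interface -/

/-- the Kummer model from (HN) and (ES) in the form of `Kum/ESKummer.lean` -/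
def kumModelES (N p : ℕ)
    (hM : ∀ (ℓ : ℕ) (hℓ : ℓ.Prime), ¬ ℓ ∣ N → @HNMem N ℓ ⟨hℓ.ne_zero⟩)
    (hD : ∀ (ℓ : ℕ) (hℓ : ℓ.Prime), ¬ ℓ ∣ N → @HNDiv N p ℓ ⟨hℓ.ne_zero⟩)
    (hI : ∀ ℓ : ℕ, ℓ.Prime → ¬ ℓ ∣ N * p → ESInertia N p ℓ)
    (hF : ∀ (ℓ : ℕ) (hℓ : ℓ.Prime), ¬ ℓ ∣ N * p → @ESFrob N p ℓ ⟨hℓ.ne_zero⟩) :
    J4Asm.KumModel N p :=
  kumModel N p (fun ℓ hℓ hℓN => hnMemHyp_of (fun {_} => hM ℓ hℓ hℓN))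
    (fun ℓ hℓ hℓN => hnDivHyp_of (fun {_} => hD ℓ hℓ hℓN))
    (fun ℓ hℓ hℓNp => esInertiaHyp_of (hI ℓ hℓ hℓNp))
    (fun ℓ hℓ hℓNp => esFrobHyp_of (fun {_} => hF ℓ hℓ hℓNp))

theorem kumModelES_eq (N p : ℕ)
    (hM : ∀ (ℓ : ℕ) (hℓ : ℓ.Prime), ¬ ℓ ∣ N → @HNMem N ℓ ⟨hℓ.ne_zero⟩)
    (hD : ∀ (ℓ : ℕ) (hℓ : ℓ.Prime), ¬ ℓ ∣ N → @HNDiv N p ℓ ⟨hℓ.ne_zero⟩)
    (hI : ∀ ℓ : ℕ, ℓ.Prime → ¬ ℓ ∣ N * p → ESInertia N p ℓ)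
    (hF : ∀ (ℓ : ℕ) (hℓ : ℓ.Prime), ¬ ℓ ∣ N * p → @ESFrob N p ℓ ⟨hℓ.ne_zero⟩) :
    kumModelES N p hM hD hI hF =
      kumModel N p (fun ℓ hℓ hℓN => hnMemHyp_of (fun {_} => hM ℓ hℓ hℓN))
        (fun ℓ hℓ hℓN => hnDivHyp_of (fun {_} => hD ℓ hℓ hℓN))
        (fun ℓ hℓ hℓNp => esInertiaHyp_of (hI ℓ hℓ hℓNp))
        (fun ℓ hℓ hℓNp => esFrobHyp_of (fun {_} => hF ℓ hℓ hℓNp)) := rfl

/-! ### The model from (K18s) + (HN) -/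

/-- (ES) at a prime `ℓ ∤ Np` from (K18s) at all `A` over `ℓ` + (HN) at `ℓ` (helper44's
`es_of_k18s`, (GU) discharged) -/
theorem es_of_k18s_prime {N p ℓ : ℕ} [NeZero N] (hp : 0 < p) (hℓ : ℓ.Prime)
    (hK : ∀ A : ValuationSubring Qb, A.LiesOverPrime ℓ → K18s A (residue A) N p)
    (hM : @HNMem N ℓ ⟨hℓ.ne_zero⟩) (hD : @HNDiv N p ℓ ⟨hℓ.ne_zero⟩) :
    ESInertia N p ℓ ∧ @ESFrob N p ℓ ⟨hℓ.ne_zero⟩ := by
  have : Fact ℓ.Prime := ⟨hℓ⟩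
  exact es_of_k18s hp hK hM hD

/-- the Kummer model from J1's (K18s) and J3's (HN) -/
def kumModelK18s (N p : ℕ) [NeZero N] (hp : 0 < p)
    (hK : ∀ ℓ : ℕ, ℓ.Prime → ¬ ℓ ∣ N * p →
      ∀ A : ValuationSubring Qb, A.LiesOverPrime ℓ → K18s A (residue A) N p)
    (hM : ∀ (ℓ : ℕ) (hℓ : ℓ.Prime), ¬ ℓ ∣ N → @HNMem N ℓ ⟨hℓ.ne_zero⟩)
    (hD : ∀ (ℓ : ℕ) (hℓ : ℓ.Prime), ¬ ℓ ∣ N → @HNDiv N p ℓ ⟨hℓ.ne_zero⟩) :
    J4Asm.KumModel N p :=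
  kumModelES N p hM hD
    (fun ℓ hℓ hℓNp =>
      (es_of_k18s_prime hp hℓ (hK ℓ hℓ hℓNp)
        (hM ℓ hℓ fun h => hℓNp (dvd_mul_of_dvd_left h p))
        (hD ℓ hℓ fun h => hℓNp (dvd_mul_of_dvd_left h p))).1)
    (fun ℓ hℓ hℓNp =>
      (es_of_k18s_prime hp hℓ (hK ℓ hℓ hℓNp)
        (hM ℓ hℓ fun h => hℓNp (dvd_mul_of_dvd_left h p))
        (hD ℓ hℓ fun h => hℓNp (dvd_mul_of_dvd_left h p))).2)

theorem kumModelK18s_K (N p : ℕ) [NeZero N] (hp : 0 < p)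
    (hK : ∀ ℓ : ℕ, ℓ.Prime → ¬ ℓ ∣ N * p →
      ∀ A : ValuationSubring Qb, A.LiesOverPrime ℓ → K18s A (residue A) N p)
    (hM : ∀ (ℓ : ℕ) (hℓ : ℓ.Prime), ¬ ℓ ∣ N → @HNMem N ℓ ⟨hℓ.ne_zero⟩)
    (hD : ∀ (ℓ : ℕ) (hℓ : ℓ.Prime), ¬ ℓ ∣ N → @HNDiv N p ℓ ⟨hℓ.ne_zero⟩) :
    (kumModelK18s N p hp hK hM hD).K = Additive (Kum Kb (FK N) p) := rfl

end Fermat.Agent.GJ.Kum.KumType
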