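/-
GATE-J / J4 junction (helper29): the packaged gate `KumGate N p` (helper31's `S29Top`) and
`KUM` (helper22's `S29Final`) from

* (ES)  : `Kum.ESInertia N p ℓ ∧ Kum.ESFrob N p ℓ` for all primes `ℓ ∤ N p`   (J3, helper44), or
          directly from J1's clause-free Kummer statement `K18s`;
* (EIG) : `KumGroup.EIG N p`                                                   (J2, helper99).

The Hecke-norm inputs (HN1, HN2) are theorems (helper43's `HN.hnMem`, `HN.hnDiv`); the model is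
helper42's `KumType.kumModel`; the eigenvector comes from `EigAdapter.hasEigen_of_EIG_gen`.
-/
import Fermat.Agent.GJ.Kum.EigAdapter
import Fermat.Agent.GJ.Kum.KumType
import Fermat.Agent.GJ.Kum.ESFinal
import Fermat.Agent.GJ.HN.Bridge
import Fermat.Agent.GJ.J4.S29Top
import Fermat.Agent.GJ.J4.S29Final

set_option autoImplicit false

namespace Fermat.Agent.GJ.Kum.KumGate

open AlgebraicCurve ModularCurve CuspForm IsLocalRing
open Fermat.Agent.GJ.KumGroup Fermat.Agent.GJ.Kum.KumType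
open Fermat.Agent.GJ.S18.Front (K18s)

/-! ### Converters to the hypothesis Props of `KumType` -/

/-- (HN1) in `KumType` form, from helper43's theorem. -/
theorem hnMemHyp (N : ℕ) [NeZero N] {ℓ : ℕ} (hℓ : ℓ.Prime) (hℓN : ¬ ℓ ∣ N) : HNMemHyp N ℓ :=
  fun {_} u hu => Fermat.Agent.GJ.HN.hnMem N ℓ hℓ hℓN u hu

/-- (HN2) in `KumType` form, from helper43's / helper4's theorem. -/
theorem hnDivHyp (N p : ℕ) [NeZero N] {ℓ : ℕ} (hℓ : ℓ.Prime) (hℓN : ¬ ℓ ∣ N) :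
    HNDivHyp N p ℓ :=
  fun {_} u x hu hx hdiv => Fermat.Agent.GJ.HN.hnDiv N ℓ hℓ hℓN p u x hu hx hdiv

/-- (ES-i) in `KumType` form, from helper44's Prop. -/
theorem esInertiaHyp_of {N p ℓ : ℕ} (h : ESInertia N p ℓ) : ESInertiaHyp N p ℓ :=
  fun A hA s hs u hu hdiv => h A hA s hs u hu hdiv

/-- (ES-ii) in `KumType` form, from helper44's Prop. -/
theorem esFrobHyp_of {N p ℓ : ℕ} (h : ∀ [NeZero ℓ], ESFrob N p ℓ) : ESFrobHyp N p ℓ :=
  fun {_} A hA s hs u hu hdiv => h A hA s hs u hu hdiv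

/-! ### The gate -/

section Gate

variable (N : ℕ) [NeZero N] (p : ℕ)

/-- The Kummer model of `J₀(N)[p]` with all Hecke-norm inputs discharged; the only remaining
input is (ES) at the primes `ℓ ∤ N p`. -/
noncomputable def model
    (hES : ∀ ℓ : ℕ, ℓ.Prime → ¬ ℓ ∣ N * p → ESInertia N p ℓ ∧ ∀ [NeZero ℓ], ESFrob N p ℓ) :
    J4Asm.KumModel N p :=
  kumModel N p (fun _ hℓ hℓN => hnMemHyp N hℓ hℓN) (fun _ hℓ hℓN => hnDivHyp N p hℓ hℓN)
    (fun ℓ hℓ hℓNp => esInertiaHyp_of (hES ℓ hℓ hℓNp).1)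
    (fun ℓ hℓ hℓNp => esFrobHyp_of (hES ℓ hℓ hℓNp).2)

/-- **General eigenvector statement** for `model`: any excluded set `S` and eigenvalue function
`a` as in `EigAdapter.hasEigen_of_EIG_gen`. -/
theorem model_hasEigen [Fact p.Prime]
    (hES : ∀ ℓ : ℕ, ℓ.Prime → ¬ ℓ ∣ N * p → ESInertia N p ℓ ∧ ∀ [NeZero ℓ], ESFrob N p ℓ)
    (hEIG : EIG N p) (S : Set ℕ) (hS : ∀ ℓ : ℕ, ℓ.Prime → ℓ ∣ N → ℓ ∈ S)
    (hS' : ∀ ℓ : ℕ, ℓ.Prime → ¬ ℓ ∣ N * p → ℓ ∉ S)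
    (k0 : Type) [Field k0] [Finite k0] [Algebra (ZMod p) k0]
    (θ : heckeAlgebra N 2 S →+* k0) (a : ℕ → k0)
    (ha : ∀ (ℓ : ℕ) (hℓ : ℓ.Prime) (hℓN : ¬ ℓ ∣ N) (hℓS : ℓ ∉ S),
      a ℓ = θ (heckeAlgebra.T hℓ hℓN hℓS)) :
    (model N p hES).HasEigen k0 a :=
  EigAdapter.hasEigen_of_EIG_gen (model N p hES) (AddEquiv.refl _)
    (fun _ hℓ hℓN u u' h => kumModel_T_cls_of_eq _ _ _ _ hℓ hℓN u u' h)
    hEIG S hS hS' k0 θ a ha

/-- **helper31's target** (`GJ/J4/S29Top.lean`): the gate `KumGate N p` from (ES) + (EIG). -/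
theorem kumGate (hp : p.Prime)
    (hES : ∀ ℓ : ℕ, ℓ.Prime → ¬ ℓ ∣ N * p → ESInertia N p ℓ ∧ ∀ [NeZero ℓ], ESFrob N p ℓ)
    (hEIG : EIG N p) : J4Asm.KumGate N p := by
  have : Fact p.Prime := ⟨hp⟩
  refine ⟨model N p hES, fun k0 _ _ _ _ θ => ?_⟩
  exact model_hasEigen N p hES hEIG (J4Asm.levelSet N) (fun _ _ h => h)
    (fun _ _ hℓNp h => hℓNp (Dvd.dvd.mul_right h p)) k0 θ (J4Asm.eigenvalueFn θ)
    (fun _ hℓ hℓN _ => J4Asm.eigenvalueFn_eq θ hℓ hℓN)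

/-- (ES) at all primes `ℓ ∤ N p` from J1's clause-free Kummer statement `K18s`. -/
theorem es_of_k18s (hp : p.Prime)
    (hK : ∀ ℓ : ℕ, ℓ.Prime → ¬ ℓ ∣ N * p → ∀ A : ValuationSubring Qb, A.LiesOverPrime ℓ →
      K18s A (residue A) N p) :
    ∀ ℓ : ℕ, ℓ.Prime → ¬ ℓ ∣ N * p → ESInertia N p ℓ ∧ ∀ [NeZero ℓ], ESFrob N p ℓ := by
  intro ℓ hℓ hℓNp
  have : Fact ℓ.Prime := ⟨hℓ⟩
  have hℓN : ¬ ℓ ∣ N := fun h => hℓNp (Dvd.dvd.mul_right h p)
  have h := Fermat.Agent.GJ.Kum.es_of_k18s (N := N) (p := p) (ℓ := ℓ) hp.pos (hK ℓ hℓ hℓNp)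
    (Fermat.Agent.GJ.HN.hnMem N ℓ hℓ hℓN)
    (fun u x hu hx hdiv => Fermat.Agent.GJ.HN.hnDiv N ℓ hℓ hℓN p u x hu hx hdiv)
  refine ⟨h.1, fun {inst} => ?_⟩
  have hinst : inst = ⟨hℓ.ne_zero⟩ := Subsingleton.elim _ _
  subst hinst
  exact h.2

/-- The gate from (K18s) + (EIG). -/
theorem kumGate_of_k18s (hp : p.Prime)
    (hK : ∀ ℓ : ℕ, ℓ.Prime → ¬ ℓ ∣ N * p → ∀ A : ValuationSubring Qb, A.LiesOverPrime ℓ →
      K18s A (residue A) N p)
    (hEIG : EIG N p) : J4Asm.KumGate N p :=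
  kumGate N p hp (es_of_k18s N p hp hK) hEIG

end Gate

/-! ### The global inputs and the two top-level shapes -/

/-- J1's export at all levels: the clause-free Kummer statement at every prime `ℓ ∤ N p`. -/
def K18sAll : Prop :=
  ∀ (N : ℕ) [NeZero N] (p : ℕ), p.Prime → ∀ ℓ : ℕ, ℓ.Prime → ¬ ℓ ∣ N * p →
    ∀ A : ValuationSubring Qb, A.LiesOverPrime ℓ → K18s A (residue A) N p

/-- J2's export at all levels. -/
def EIGAll : Prop := ∀ (N : ℕ) [NeZero N] (p : ℕ), p.Prime → EIG N p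

/-- helper31's `hKUM` (input of `J4Asm.s29_of_gates`) from (K18s) + (EIG). -/
theorem kumGate_all (hK : K18sAll) (hE : EIGAll) :
    ∀ (N : ℕ) [NeZero N] (p : ℕ), p.Prime → J4Asm.KumGate N p :=
  fun N _ p hp => kumGate_of_k18s N p hp (hK N p hp) (hE N p hp)

/-- helper22's `S29Final.KUM` from (K18s) + (EIG). -/
theorem kum_all (hK : K18sAll) (hE : EIGAll) : S29Final.KUM := by
  intro N _ p hpF
  have hp : p.Prime := hpF.out
  refine ⟨model N p (es_of_k18s N p hp (hK N p hp)), fun k0 _ _ _ θ => ?_⟩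
  exact model_hasEigen N p _ (hE N p hp) (S29Final.badSet N) (fun _ _ h => h)
    (fun _ _ hℓNp h => hℓNp (Dvd.dvd.mul_right h p)) k0 θ (S29Final.aOf θ)
    (fun _ hℓ hℓN _ => S29Final.aOf_eq θ hℓ hℓN)

end Fermat.Agent.GJ.Kum.KumGate
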