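/-
GATE-J / J3 brick: basic closure properties of `DivDvd` (helper29); companion of helper36's GalDiv.lean.

`DivDvd N p u` (all orders of `u ∈ F_N = modularFunctionFieldBar N` are divisible by `p`) is
stable under the coefficientwise Galois action, under products, inverses, powers, `p`-th powers
and constants.  Everything is stated for a general function field `F / K` first
(`DivDvdGen`), then specialised.
-/
import Mathlib
import Fermat.Prelude.Def_ModularCurve_ArithmeticGalois

set_option autoImplicit false

noncomputable section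

open AlgebraicCurve ModularCurve

namespace Fermat.Agent.GJ.Kum.DivBasic

section Generic

variable {K F : Type*} [Field K] [Field F] [Algebra K F]

/-- All orders of `u` are divisible by `p`. -/
def DivDvdGen (K : Type*) {F : Type*} [Field K] [Field F] [Algebra K F] (p : ℕ) (u : F) : Prop :=
  ∀ P : Place K F, (p : ℤ) ∣ P.ord u

theorem divDvdGen_zero (p : ℕ) : DivDvdGen K p (0 : F) := fun P => by
  rw [Place.ord_zero]; exact dvd_zero _

theorem divDvdGen_one (p : ℕ) : DivDvdGen K p (1 : F) := fun P => by
  rw [Place.ord_one]; exact dvd_zero _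

theorem DivDvdGen.mul {p : ℕ} {u v : F} (hu : DivDvdGen K p u) (hv : DivDvdGen K p v) :
    DivDvdGen K p (u * v) := fun P => by
  rcases eq_or_ne u 0 with rfl | hu0
  · rw [zero_mul, Place.ord_zero]; exact dvd_zero _
  rcases eq_or_ne v 0 with rfl | hv0
  · rw [mul_zero, Place.ord_zero]; exact dvd_zero _
  rw [Place.ord_mul P hu0 hv0]
  exact dvd_add (hu P) (hv P)

theorem DivDvdGen.inv {p : ℕ} {u : F} (hu : DivDvdGen K p u) : DivDvdGen K p u⁻¹ := fun P => by
  rw [Place.ord_inv]
  exact (dvd_neg).mpr (hu P)

theorem DivDvdGen.div {p : ℕ} {u v : F} (hu : DivDvdGen K p u) (hv : DivDvdGen K p v) :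
    DivDvdGen K p (u / v) := by
  rw [div_eq_mul_inv]
  exact hu.mul hv.inv

theorem DivDvdGen.pow {p : ℕ} {u : F} (hu : DivDvdGen K p u) (n : ℕ) :
    DivDvdGen K p (u ^ n) := by
  induction n with
  | zero => rw [pow_zero]; exact divDvdGen_one p
  | succ n ih => rw [pow_succ]; exact ih.mul hu

/-- Orders of natural powers. -/
theorem ord_pow_natCast (P : Place K F) (v : F) (n : ℕ) : P.ord (v ^ n) = n * P.ord v := by
  rw [← zpow_natCast, Place.ord_zpow]

/-- Constants have order zero. -/
theorem ord_algebraMap_const (P : Place K F) (c : K) : P.ord (algebraMap K F c) = 0 := by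
  rcases eq_or_ne c 0 with rfl | hc
  · simp
  · have hu : IsUnit (algebraMap K P.toValuationSubring c) :=
      (hc.isUnit).map (algebraMap K P.toValuationSubring)
    have := P.ord_coe_unit hu.unit
    simpa using this

theorem divDvdGen_pow_self (p : ℕ) (v : F) : DivDvdGen K p (v ^ p) := fun P => by
  rw [ord_pow_natCast]
  exact Dvd.intro _ rfl

theorem divDvdGen_algebraMap (p : ℕ) (c : K) : DivDvdGen K p (algebraMap K F c) := fun P => by
  rw [ord_algebraMap_const]; exact dvd_zero _

/-- The order of `g • u` at `P` is the order of `u` at `g⁻¹ • P`. -/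
theorem ord_semilinearAut_smul (g : SemilinearAut K F) (P : Place K F) (u : F) :
    P.ord (g • u) = (g⁻¹ • P).ord u := by
  have h := SemilinearAut.ord_smul g (g⁻¹ • P) u
  rwa [smul_inv_smul] at h

theorem DivDvdGen.smul {p : ℕ} {u : F} (hu : DivDvdGen K p u) (g : SemilinearAut K F) :
    DivDvdGen K p (g • u) := fun P => by
  rw [ord_semilinearAut_smul]
  exact hu _

theorem divDvdGen_smul_iff {p : ℕ} {u : F} (g : SemilinearAut K F) :
    DivDvdGen K p (g • u) ↔ DivDvdGen K p u := by
  refine ⟨fun h => ?_, fun h => h.smul g⟩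
  have := h.smul g⁻¹
  rwa [inv_smul_smul] at this

end Generic

section Modular

/-- `Qb = AlgebraicClosure ℚ`. -/
local notation "Qb" => AlgebraicClosure ℚ

variable (N p : ℕ)

/-- All orders of `u ∈ F_N` are divisible by `p` (helper44's IFACE:ES draft, verbatim). -/
def DivDvd (u : modularFunctionFieldBar N) : Prop :=
  ∀ P : AlgebraicCurve.Place Qb (modularFunctionFieldBar N), (p : ℤ) ∣ P.ord u

theorem divDvd_iff_gen (u : modularFunctionFieldBar N) :
    DivDvd N p u ↔ DivDvdGen Qb p u := Iff.rfl

variable {N p}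

theorem divDvd_one : DivDvd N p 1 := divDvdGen_one p

theorem DivDvd.mul {u v : modularFunctionFieldBar N} (hu : DivDvd N p u) (hv : DivDvd N p v) :
    DivDvd N p (u * v) := DivDvdGen.mul hu hv

theorem DivDvd.inv {u : modularFunctionFieldBar N} (hu : DivDvd N p u) : DivDvd N p u⁻¹ :=
  DivDvdGen.inv hu

theorem DivDvd.div {u v : modularFunctionFieldBar N} (hu : DivDvd N p u) (hv : DivDvd N p v) :
    DivDvd N p (u / v) := DivDvdGen.div hu hv

theorem DivDvd.pow {u : modularFunctionFieldBar N} (hu : DivDvd N p u) (n : ℕ) :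
    DivDvd N p (u ^ n) := DivDvdGen.pow hu n

theorem divDvd_pow_self (v : modularFunctionFieldBar N) : DivDvd N p (v ^ p) :=
  divDvdGen_pow_self p v

theorem divDvd_algebraMap (c : Qb) :
    DivDvd N p (algebraMap Qb (modularFunctionFieldBar N) c) :=
  divDvdGen_algebraMap p c

/-- The order formula for the coefficientwise Galois action. -/
theorem ord_arithmeticRingAut (s : Qb ≃ₐ[ℚ] Qb)
    (P : AlgebraicCurve.Place Qb (modularFunctionFieldBar N)) (u : modularFunctionFieldBar N) :
    P.ord (arithmeticRingAut (modularFunctionFieldFull N) s u) =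
      ((arithmeticGalois (modularFunctionFieldFull N) s)⁻¹ • P).ord u :=
  ord_semilinearAut_smul (arithmeticGalois (modularFunctionFieldFull N) s) P u

/-- **GALDIV**: `DivDvd` is stable under the coefficientwise Galois action. -/
theorem DivDvd.gal {u : modularFunctionFieldBar N} (hu : DivDvd N p u) (s : Qb ≃ₐ[ℚ] Qb) :
    DivDvd N p (arithmeticRingAut (modularFunctionFieldFull N) s u) :=
  DivDvdGen.smul hu (arithmeticGalois (modularFunctionFieldFull N) s)

theorem divDvd_gal_iff {u : modularFunctionFieldBar N} (s : Qb ≃ₐ[ℚ] Qb) :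
    DivDvd N p (arithmeticRingAut (modularFunctionFieldFull N) s u) ↔ DivDvd N p u :=
  divDvdGen_smul_iff (arithmeticGalois (modularFunctionFieldFull N) s)

end Modular

end Fermat.Agent.GJ.Kum.DivBasic
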