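/-
GATE-J / J3 (helper44): IFACE:ES with (GU) AND (HN) discharged — the ONLY remaining input is J1's
Kummer statement.  (HN1/HN2 = helper43's `GJ/HN/Bridge.lean` + helper4's `ord_norm`;
GU = helper42's `GJ/GU/GaussFrac.lean`.)

* `hnMem_all`, `hnDiv_all` : `HNMem N ℓ`, `HNDiv N p ℓ` for `ℓ` prime, `ℓ ∤ N`
* `es_of_k18s_only` : `(∀ A over ℓ, K18s A (residue A) N p) ⟹ ESInertia N p ℓ ∧ ESFrob N p ℓ`
* `es_of_k18_only`  : `(∀ A over ℓ, K18 A (residue A) N p) ∧ (∀ A over ℓ, RedMem N A) ⟹ …`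
-/
import Fermat.Agent.GJ.Kum.ESFinal
import Fermat.Agent.GJ.HN.Bridge

set_option autoImplicit false

namespace Fermat.Agent.GJ.Kum

open HahnSeries ModularCurve AlgebraicCurve IsLocalRing
open Fermat.Agent.GJ.S18.Front (K18 K18s)

variable (N p ℓ : ℕ) [NeZero N] [hℓ : Fact ℓ.Prime]

/-- (HN1) is a theorem (helper43) -/
theorem hnMem_all (hℓN : ¬ ℓ ∣ N) : HNMem N ℓ :=
  fun u hu => Fermat.Agent.GJ.HN.hnMem N ℓ hℓ.out hℓN u hu

/-- (HN2) is a theorem (helper43 + helper4) -/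
theorem hnDiv_all (hℓN : ¬ ℓ ∣ N) : HNDiv N p ℓ :=
  fun u x hu hx hdiv => Fermat.Agent.GJ.HN.hnDiv N ℓ hℓ.out hℓN p u x hu hx hdiv

/-- **IFACE:ES from the clause-free (K18s) alone**. -/
theorem es_of_k18s_only (hℓN : ¬ ℓ ∣ N) (hp : 0 < p)
    (hK : ∀ A : ValuationSubring Qb, A.LiesOverPrime ℓ → K18s A (residue A) N p) :
    ESInertia N p ℓ ∧ ESFrob N p ℓ :=
  es_of_k18s hp hK (hnMem_all N ℓ hℓN) (hnDiv_all N p ℓ hℓN)

/-- **IFACE:ES from (K18) + (RES)**. -/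
theorem es_of_k18_only (hℓN : ¬ ℓ ∣ N) (hp : 0 < p)
    (hK : ∀ A : ValuationSubring Qb, A.LiesOverPrime ℓ → K18 A (residue A) N p)
    (hR : ∀ A : ValuationSubring Qb, A.LiesOverPrime ℓ → RedMem N A) :
    ESInertia N p ℓ ∧ ESFrob N p ℓ :=
  es_of_k18 hp hK hR (hnMem_all N ℓ hℓN) (hnDiv_all N p ℓ hℓN)

end Fermat.Agent.GJ.Kum
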