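/-
GATE-J / J4 junction (helper29): with J2 closed (`EigAsm.eig`, helper86 et al.), the packaged
gates `KumGate N p` (helper31) and `S29Final.KUM` (helper22) follow from J1's export alone:

  `kum_of_k18sAll : KumGate.K18sAll → S29Final.KUM`,
  `kumGate_of_k18sAll : KumGate.K18sAll → ∀ N [NeZero N] p, p.Prime → J4Asm.KumGate N p`.
-/
import Fermat.Agent.GJ.Kum.KumGate
import Fermat.Agent.GJ.J2.EigFinal

set_option autoImplicit false

namespace Fermat.Agent.GJ.Kum.KumGate

/-- J2's export at all levels is a theorem. -/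
theorem eigAll : EIGAll := fun N _ p hp =>
  haveI : Fact p.Prime := ⟨hp⟩
  Fermat.Agent.GJ.EigAsm.eig N p

/-- helper22's `S29Final.KUM` from J1's export alone. -/
theorem kum_of_k18sAll (hK : K18sAll) : S29Final.KUM := kum_all hK eigAll

/-- helper31's `hKUM` (input of `J4Asm.s29_of_gates`) from J1's export alone. -/
theorem kumGate_of_k18sAll (hK : K18sAll) :
    ∀ (N : ℕ) [NeZero N] (p : ℕ), p.Prime → J4Asm.KumGate N p :=
  kumGate_all hK eigAll

end Fermat.Agent.GJ.Kum.KumGate
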